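import Fermat.Agent.Lib.Frob.PrimeZeta
import Fermat.Agent.Frob.Defs

/-!
# The prime sum `∑_p a_K(p) p^(-s)` over rational primes

We regroup the sum over degree-one prime ideals of `Lib/Frob/PrimeZeta.lean` according to the
norm, and extend the range from `(1, 1+δ)` to `(1, 2]`. The result is exactly the statement
`primeSum_bound` of the FROB project (task M3b).
-/

set_option autoImplicit false
set_option linter.unusedSectionVars false

open Filter Ideal NumberField Topology IsDedekindDomain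

namespace Fermat.Agent.Lib.Frob

variable (K : Type*) [Field K] [NumberField K]

/-- The norm map from degree-one primes to rational primes. -/
noncomputable def normPrime (𝔭 : ↥(degOne K)) : Nat.Primes := ⟨absNorm 𝔭.1.asIdeal, 𝔭.2⟩

/-- The fibre of the norm map over `p` is the set of ideals of norm `p`. -/
noncomputable def fibreEquiv (p : Nat.Primes) :
    {𝔭 : ↥(degOne K) // normPrime K 𝔭 = p} ≃ {I : Ideal (𝓞 K) // absNorm I = (p : ℕ)} where
  toFun 𝔭 := ⟨𝔭.1.1.asIdeal, congrArg Subtype.val 𝔭.2⟩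
  invFun I :=
    ⟨⟨⟨I.1, Ideal.isPrime_of_irreducible_absNorm (by rw [I.2]; exact p.2), by
        intro h
        have h0 : absNorm I.1 = 0 := by rw [h, absNorm_bot]
        rw [I.2] at h0
        exact p.2.ne_zero h0⟩, by
        show (absNorm I.1).Prime
        rw [I.2]; exact p.2⟩, Subtype.ext I.2⟩
  left_inv 𝔭 := rfl
  right_inv I := rfl

instance finite_fibre_normPrime (p : Nat.Primes) :
    Finite {𝔭 : ↥(degOne K) // normPrime K 𝔭 = p} :=
  haveI : Finite {I : Ideal (𝓞 K) // absNorm I = (p : ℕ)} :=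
    (finite_setOfPred_absNorm_eq (p : ℕ)).to_subtype
  Finite.of_equiv _ (fibreEquiv K p).symm

theorem tsum_fibre_normPrime (s : ℝ) (p : Nat.Primes) :
    ∑' 𝔭 : {𝔭 : ↥(degOne K) // normPrime K 𝔭 = p}, pw K s 𝔭.1.1
      = (Fermat.Agent.Frob.idealCount K p : ℝ) * ((p : ℕ) : ℝ) ^ (-s) := by
  have h1 : ∀ 𝔭 : {𝔭 : ↥(degOne K) // normPrime K 𝔭 = p}, pw K s 𝔭.1.1 = ((p : ℕ) : ℝ) ^ (-s) := by
    intro 𝔭
    have : absNorm 𝔭.1.1.asIdeal = (p : ℕ) := congrArg Subtype.val 𝔭.2
    rw [pw_eq, this]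
  rw [tsum_congr h1]
  let _ : Fintype {𝔭 : ↥(degOne K) // normPrime K 𝔭 = p} := Fintype.ofFinite _
  rw [tsum_fintype, Finset.sum_const, Finset.card_univ, nsmul_eq_mul, ← Nat.card_eq_fintype_card,
    Nat.card_congr (fibreEquiv K p)]
  rfl

theorem summable_sigma_normPrime {s : ℝ} (hs : 1 < s) :
    Summable (fun x : (Σ p : Nat.Primes, {𝔭 : ↥(degOne K) // normPrime K 𝔭 = p}) =>
      pw K s x.2.1.1) := by
  have h := summable_pw_subtype K (degOne K) hs
  have h2 := ((Equiv.sigmaFiberEquiv (normPrime K)).summable_iff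
    (f := fun 𝔭 : ↥(degOne K) => pw K s 𝔭.1)).mpr h
  have he : (fun 𝔭 : ↥(degOne K) => pw K s 𝔭.1) ∘ (Equiv.sigmaFiberEquiv (normPrime K)) =
      (fun x : (Σ p : Nat.Primes, {𝔭 : ↥(degOne K) // normPrime K 𝔭 = p}) => pw K s x.2.1.1) := by
    funext x
    rfl
  rw [he] at h2
  exact h2

/-- Summability of `∑_p a_K(p) p^(-s)` for `s > 1`. -/
theorem summable_idealCount_primes {s : ℝ} (hs : 1 < s) :
    Summable (fun p : Nat.Primes => (Fermat.Agent.Frob.idealCount K p : ℝ) * ((p : ℕ) : ℝ) ^ (-s)) := by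
  have h := summable_sigma_normPrime K hs
  rw [summable_sigma_of_nonneg (fun x => pw_nonneg s _)] at h
  have h2 := h.2
  simp_rw [tsum_fibre_normPrime] at h2
  exact h2

/-- Regrouping: the sum over degree-one primes is `∑_p a_K(p) p^(-s)`. -/
theorem tsum_degOne_eq_tsum_primes {s : ℝ} (hs : 1 < s) :
    ∑' 𝔭 : ↥(degOne K), pw K s 𝔭.1
      = ∑' p : Nat.Primes, (Fermat.Agent.Frob.idealCount K p : ℝ) * ((p : ℕ) : ℝ) ^ (-s) := by
  have h := summable_sigma_normPrime K hs
  rw [← (Equiv.sigmaFiberEquiv (normPrime K)).tsum_eq (fun 𝔭 : ↥(degOne K) => pw K s 𝔭.1)]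
  have he : (fun c => pw K s ((Equiv.sigmaFiberEquiv (normPrime K)) c).1) =
      (fun x : (Σ p : Nat.Primes, {𝔭 : ↥(degOne K) // normPrime K 𝔭 = p}) => pw K s x.2.1.1) := by
    funext x
    rfl
  rw [he, Summable.tsum_sigma' (fun p => Summable.of_finite) h]
  simp_rw [tsum_fibre_normPrime]

/-! ### Extending the range to `(1, 2]` -/

theorem one_le_zetaR {s : ℝ} (hs : 1 < s) : 1 ≤ zetaR K s := by
  have h := prod_one_add_wt_le_zetaR K hs ∅
  rwa [Finset.prod_empty] at h

theorem zetaR_antitone {s t : ℝ} (hs : 1 < s) (hst : s ≤ t) : zetaR K t ≤ zetaR K s :=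
  Summable.tsum_le_tsum (fun I => wt_antitone hst I.2) (summable_wt K (lt_of_lt_of_le hs hst))
    (summable_wt K hs)

theorem exists_bound_log_zetaR_Ioc :
    ∃ C : ℝ, ∀ s : ℝ, 1 < s → s ≤ 2 →
      |Real.log (zetaR K s) - Real.log (1 / (s - 1))| ≤ C := by
  obtain ⟨C, δ, hδ, h⟩ := exists_bound_log_zetaR K
  refine ⟨max C (max |Real.log δ| |Real.log (zetaR K (1 + δ))|), fun s hs1 hs2 => ?_⟩
  by_cases hsδ : s < 1 + δ
  · exact le_trans (h s hs1 hsδ) (le_max_left _ _)
  · have hsδ' : 1 + δ ≤ s := not_lt.mp hsδ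
    have hs0 : (0 : ℝ) < s - 1 := by linarith
    have hz := zetaR_pos K hs1
    have heq : Real.log (zetaR K s) - Real.log (1 / (s - 1))
        = Real.log ((s - 1) * zetaR K s) := by
      rw [one_div, Real.log_inv, Real.log_mul hs0.ne' hz.ne']
      ring
    rw [heq]
    have hlow : δ ≤ (s - 1) * zetaR K s := by
      have h1 := one_le_zetaR K hs1
      nlinarith
    have hup : (s - 1) * zetaR K s ≤ zetaR K (1 + δ) := by
      have h1 := zetaR_antitone K (by linarith : (1 : ℝ) < 1 + δ) hsδ'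
      have h2 : s - 1 ≤ 1 := by linarith
      nlinarith
    have h1 : Real.log δ ≤ Real.log ((s - 1) * zetaR K s) := Real.log_le_log hδ hlow
    have h2 : Real.log ((s - 1) * zetaR K s) ≤ Real.log (zetaR K (1 + δ)) :=
      Real.log_le_log (lt_of_lt_of_le hδ hlow) hup
    refine le_trans ?_ (le_max_right _ _)
    rw [abs_le]
    constructor
    · have := neg_abs_le (Real.log δ)
      have := le_max_left |Real.log δ| |Real.log (zetaR K (1 + δ))|
      linarith
    · have := le_abs_self (Real.log (zetaR K (1 + δ)))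
      have := le_max_right |Real.log δ| |Real.log (zetaR K (1 + δ))|
      linarith

/-- Degree-one prime sum on the whole interval `(1, 2]`. -/
theorem tsum_degOne_sub_log_bounded_Ioc :
    ∃ C : ℝ, ∀ s : ℝ, 1 < s → s ≤ 2 →
      |∑' 𝔭 : ↥(degOne K), pw K s 𝔭.1 - Real.log (1 / (s - 1))| ≤ C := by
  obtain ⟨C, h⟩ := exists_bound_log_zetaR_Ioc K
  refine ⟨2 * Qc K + Dc K + C, fun s hs1 hs2 => ?_⟩
  have h1 := abs_tsum_pw_sub_log_zetaR_le K hs1
  have h2 := tsum_degOne_add_tsum_compl K hs1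
  have h3 := tsum_pw_not_degOne_le K hs1.le
  have h4 := tsum_pw_not_degOne_nonneg K s
  have h5 := h s hs1 hs2
  rw [abs_le] at h1 h5 ⊢
  constructor <;> linarith [h1.1, h1.2, h5.1, h5.2]

/-- **FROB task M3b**: `∑_p a_K(p) p^(-s) = log (1/(s-1)) + O(1)` on `(1, 2]`, where
`a_K(p) = idealCount K p` is the number of ideals of norm `p`. -/
theorem primeSum_bound_aux : ∃ C : ℝ, ∀ s : ℝ, 1 < s → s ≤ 2 →
    Summable (fun p : Nat.Primes => (Fermat.Agent.Frob.idealCount K p : ℝ) * (p : ℝ) ^ (-s)) ∧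
    |∑' p : Nat.Primes, (Fermat.Agent.Frob.idealCount K p : ℝ) * (p : ℝ) ^ (-s)
      - Real.log (1 / (s - 1))| ≤ C := by
  obtain ⟨C, h⟩ := tsum_degOne_sub_log_bounded_Ioc K
  refine ⟨C, fun s hs1 hs2 => ⟨summable_idealCount_primes K hs1, ?_⟩⟩
  have := h s hs1 hs2
  rwa [tsum_degOne_eq_tsum_primes K hs1] at this

end Fermat.Agent.Lib.Frob
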