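import Mathlib
import Fermat.Prelude.Def_EllipticCurve_FrobeniusTrace
import Fermat.Prelude.Def_FLTPrelim_Ramification
import Fermat.Agent.Lib.FrobeniusExists

/-!
# Bridge: arithmetic Frobenius elements of number fields and the prelude's `IsFrobeniusAt`

Let `L` be a finite Galois extension of `ℚ` inside `AlgebraicClosure ℚ`, `P` a prime of `𝓞 L`
over the rational prime `p` with trivial inertia group, and `τ ∈ Gal(L/ℚ)` an arithmetic
Frobenius at `P`.  Then there are a valuation subring `A` of `AlgebraicClosure ℚ` lying over `p`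
and a Frobenius element `σ` at `A` (in the sense of the prelude) whose restriction to `L` is `τ`
(`exists_isFrobeniusAt_restrict_eq`).
-/

set_option autoImplicit false

namespace Fermat.Agent.Lib.Frob

open NumberField
open scoped Pointwise

local notation "Qbar" => AlgebraicClosure ℚ

/-- The Frobenius congruence on the elements of the valuation ring. -/
theorem sub_pow_mem_nonunits_of_isFrobeniusAt {K L : Type*} [Field K] [Field L] [Algebra K L]
    (A : ValuationSubring L) (σ : L ≃ₐ[K] L) (q : ℕ) (h : A.IsFrobeniusAt σ q) {y : L}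
    (hy : y ∈ A) : σ y - y ^ q ∈ A.nonunits := by
  obtain ⟨hσ, h2⟩ := h
  have h3 := h2 (IsLocalRing.residue A ⟨y, hy⟩)
  rw [← IsLocalRing.ResidueField.residue_smul, ← map_pow, ← sub_eq_zero, ← map_sub,
    IsLocalRing.residue_eq_zero_iff, ← ValuationSubring.coe_mem_nonunits_iff] at h3
  exact h3

/-- A valuation subring of `Qbar` dominating a maximal ideal of the ring of integers of a
subfield. -/
theorem exists_valuationSubring_over (L : IntermediateField ℚ Qbar)
    (P : Ideal (𝓞 L)) [P.IsMaximal] :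
    ∃ A : ValuationSubring Qbar, ∀ x : 𝓞 L,
      (((x : L) : Qbar) ∈ A) ∧ (x ∈ P ↔ ((x : L) : Qbar) ∈ A.nonunits) := by
  let φ : 𝓞 L →+* Qbar := (algebraMap L Qbar).comp (algebraMap (𝓞 L) L)
  have hφ : Function.Injective φ :=
    (algebraMap L Qbar).injective.comp RingOfIntegers.coe_injective
  let e : 𝓞 L ≃+* φ.range := RingEquiv.ofBijective φ.rangeRestrict
    ⟨fun a b hab => hφ (by simpa using congrArg Subtype.val hab), φ.rangeRestrict_surjective⟩
  let I : Ideal φ.range := Ideal.comap (e.symm : φ.range →+* 𝓞 L) P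
  have hI : I ≠ ⊤ := (Ideal.comap_isPrime (e.symm : φ.range →+* 𝓞 L) P).ne_top
  obtain ⟨A, hA1, hA2⟩ := Ideal.image_subset_nonunits_valuationSubring I hI
  have hmem : ∀ x : 𝓞 L, ((x : L) : Qbar) ∈ A := fun x => hA1 ⟨x, rfl⟩
  have hP : ∀ x : 𝓞 L, x ∈ P → ((x : L) : Qbar) ∈ A.nonunits := by
    intro x hx
    refine hA2 ⟨e x, ?_, rfl⟩
    show (e.symm : φ.range →+* 𝓞 L) (e x) ∈ P
    simpa using hx
  refine ⟨A, fun x => ⟨hmem x, hP x, fun hx => ?_⟩⟩
  -- the contraction of the maximal ideal of `A` is a proper ideal containing `P`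
  let ψ : 𝓞 L →+* A := φ.codRestrict A.toSubring hmem
  let J : Ideal (𝓞 L) := Ideal.comap ψ (IsLocalRing.maximalIdeal A)
  have hJ : J ≠ ⊤ := (Ideal.comap_isPrime ψ _).ne_top
  have hPJ : P ≤ J := by
    intro y hy
    show ψ y ∈ IsLocalRing.maximalIdeal A
    rw [← ValuationSubring.coe_mem_nonunits_iff]
    exact hP y hy
  have hJP : J = P := ((Ideal.IsMaximal.eq_of_le inferInstance hJ hPJ)).symm
  rw [← hJP]
  show ψ x ∈ IsLocalRing.maximalIdeal A
  rw [← ValuationSubring.coe_mem_nonunits_iff]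
  exact hx

/-- The residue field of `ℤ` at the prime below a prime `P ∋ p` has `p` elements. -/
theorem natCard_quotient_under_eq (L : Type*) [Field L] {p : ℕ} (hp : p.Prime)
    (P : Ideal (𝓞 L)) [P.IsPrime] (hP : (p : 𝓞 L) ∈ P) : Nat.card (ℤ ⧸ P.under ℤ) = p := by
  have h1 : P.under ℤ = Ideal.span {(p : ℤ)} := by
    have hmax : (Ideal.span {(p : ℤ)}).IsMaximal :=
      PrincipalIdealRing.isMaximal_of_irreducible (Nat.prime_iff_prime_int.mp hp).irreducible
    refine (hmax.eq_of_le (Ideal.IsPrime.ne_top inferInstance) ?_).symm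
    rw [Ideal.span_singleton_le_iff_mem]
    show algebraMap ℤ (𝓞 L) (p : ℤ) ∈ P
    simpa using hP
  rw [h1, Nat.card_congr (Int.quotientSpanNatEquivZMod p).toEquiv, Nat.card_zmod]

/-- **Bridge, unconditional form.** For a prime `P ∋ p` of the ring of integers of a finite
Galois extension `L ⊆ Qbar` of `ℚ` there are a valuation subring `A` of `Qbar` over `p` and a
Frobenius element `σ` at `A` (in the sense of the prelude) whose restriction to `L` is an
arithmetic Frobenius at `P`.  Moreover `A` dominates `P`. -/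
theorem exists_isFrobeniusAt_isArithFrobAt
    (L : IntermediateField ℚ Qbar) [FiniteDimensional ℚ L] [IsGalois ℚ L]
    {p : ℕ} (hp : p.Prime) (P : Ideal (𝓞 L)) [P.IsPrime] (hP : (p : 𝓞 L) ∈ P) :
    ∃ (A : ValuationSubring Qbar) (σ : Qbar ≃ₐ[ℚ] Qbar),
      A.LiesOverPrime p ∧ A.IsFrobeniusAt σ p ∧
      IsArithFrobAt ℤ (AlgEquiv.restrictNormalHom L σ) P ∧
      ∀ x : 𝓞 L, (((x : L) : Qbar) ∈ A) ∧ (x ∈ P ↔ ((x : L) : Qbar) ∈ A.nonunits) := by
  have : NumberField L := ⟨⟩
  have hp0 : (p : 𝓞 L) ≠ 0 := Nat.cast_ne_zero.mpr hp.ne_zero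
  have hPbot : P ≠ ⊥ := fun h => hp0 (by simpa [h] using hP)
  have : P.IsMaximal := Ring.DimensionLEOne.maximalOfPrime hPbot inferInstance
  obtain ⟨A, hA⟩ := exists_valuationSubring_over L P
  have hAp : A.LiesOverPrime p := by
    have := (hA (p : 𝓞 L)).2.mp hP
    simpa [ValuationSubring.LiesOverPrime] using this
  obtain ⟨σ, hσ⟩ := FrobeniusExists.exists_isFrobeniusAt_of_liesOverPrime hp A hAp
  refine ⟨A, σ, hAp, hσ, ?_, hA⟩
  -- the restriction of `σ` is an arithmetic Frobenius at `P`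
  intro x
  rw [natCard_quotient_under_eq L hp P hP]
  rw [(hA _).2]
  have h1 := sub_pow_mem_nonunits_of_isFrobeniusAt A σ p hσ (hA x).1
  have h2 : ((AlgEquiv.restrictNormalHom L σ (x : L) : L) : Qbar) = σ ((x : L) : Qbar) :=
    AlgEquiv.restrictNormal_commutes σ L (x : L)
  rw [← h2] at h1
  have h3 : (((MulSemiringAction.toAlgHom ℤ (𝓞 L) (AlgEquiv.restrictNormalHom L σ)) x - x ^ p :
      𝓞 L) : L) = (AlgEquiv.restrictNormalHom L σ) (x : L) - (x : L) ^ p := by
    show algebraMap (𝓞 L) L (_ - _) = _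
    rw [map_sub, map_pow]
    rfl
  rw [h3]
  push_cast
  exact h1

/-- **Bridge.** An arithmetic Frobenius at an unramified prime of a finite Galois extension
`L ⊆ Qbar` of `ℚ` is the restriction of a Frobenius element (in the sense of the prelude) of
the absolute Galois group. -/
theorem exists_isFrobeniusAt_restrict_eq
    (L : IntermediateField ℚ Qbar) [FiniteDimensional ℚ L] [IsGalois ℚ L]
    {p : ℕ} (hp : p.Prime) (P : Ideal (𝓞 L)) [P.IsPrime] (hP : (p : 𝓞 L) ∈ P)
    (hunr : P.inertia Gal(L/ℚ) = ⊥) (τ : Gal(L/ℚ)) (hτ : IsArithFrobAt ℤ τ P) :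
    ∃ (A : ValuationSubring Qbar) (σ : Qbar ≃ₐ[ℚ] Qbar),
      A.LiesOverPrime p ∧ A.IsFrobeniusAt σ p ∧ AlgEquiv.restrictNormalHom L σ = τ := by
  obtain ⟨A, σ, hAp, hσ, hτ₀, -⟩ := exists_isFrobeniusAt_isArithFrobAt L hp P hP
  refine ⟨A, σ, hAp, hσ, ?_⟩
  have h3 := IsArithFrobAt.mul_inv_mem_inertia hτ₀ hτ
  rw [hunr, Subgroup.mem_bot] at h3
  exact mul_inv_eq_one.mp h3

end Fermat.Agent.Lib.Frob
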