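import Mathlib

/-!
# F1 of the Frobenius density project: the prime ideal zeta sum

For a number field `K` we prove
`∑_𝔭 N𝔭^(-s) = log (1 / (s - 1)) + O(1)` as `s → 1⁺`,
and the same for the primes of degree one.
-/

set_option autoImplicit false
set_option linter.unusedSectionVars false

open Filter Ideal NumberField Topology IsDedekindDomain

namespace Fermat.Agent.Lib.Frob

variable (K : Type*) [Field K] [NumberField K]

/-- The weight `N(I)^(-s)` of an ideal. -/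
noncomputable def wt (s : ℝ) (I : Ideal (𝓞 K)) : ℝ := (absNorm I : ℝ) ^ (-s)

variable {K}

theorem wt_nonneg (s : ℝ) (I : Ideal (𝓞 K)) : 0 ≤ wt K s I := by
  unfold wt; positivity

theorem wt_mul (s : ℝ) (I J : Ideal (𝓞 K)) : wt K s (I * J) = wt K s I * wt K s J := by
  unfold wt
  rw [map_mul, Nat.cast_mul, Real.mul_rpow (Nat.cast_nonneg _) (Nat.cast_nonneg _)]

theorem wt_one (s : ℝ) : wt K s (1 : Ideal (𝓞 K)) = 1 := by
  unfold wt
  rw [Ideal.one_eq_top, absNorm_top, Nat.cast_one, Real.one_rpow]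

theorem wt_pow (s : ℝ) (I : Ideal (𝓞 K)) (n : ℕ) : wt K s (I ^ n) = wt K s I ^ n := by
  induction n with
  | zero => rw [pow_zero, pow_zero, wt_one]
  | succ n ih => rw [pow_succ, pow_succ, wt_mul, ih]

theorem wt_prod {ι : Type*} (s : ℝ) (F : Finset ι) (f : ι → Ideal (𝓞 K)) :
    wt K s (∏ i ∈ F, f i) = ∏ i ∈ F, wt K s (f i) := by
  classical
  induction F using Finset.induction_on with
  | empty => rw [Finset.prod_empty, Finset.prod_empty, wt_one]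
  | insert a F ha ih => rw [Finset.prod_insert ha, Finset.prod_insert ha, wt_mul, ih]

theorem two_le_absNorm (𝔭 : HeightOneSpectrum (𝓞 K)) : 2 ≤ absNorm 𝔭.asIdeal := by
  have h0 : absNorm 𝔭.asIdeal ≠ 0 := by
    rw [Ne, absNorm_eq_zero_iff]; exact 𝔭.ne_bot
  have h1 : absNorm 𝔭.asIdeal ≠ 1 := by
    rw [Ne, absNorm_eq_one_iff]; exact 𝔭.isPrime.ne_top
  omega

theorem wt_prime_le_half {s : ℝ} (hs : 1 ≤ s) (𝔭 : HeightOneSpectrum (𝓞 K)) :
    wt K s 𝔭.asIdeal ≤ 1 / 2 := by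
  unfold wt
  have h2 : (2 : ℝ) ≤ (absNorm 𝔭.asIdeal : ℝ) := by exact_mod_cast two_le_absNorm 𝔭
  calc (absNorm 𝔭.asIdeal : ℝ) ^ (-s) ≤ (2 : ℝ) ^ (-s) :=
        Real.rpow_le_rpow_of_nonpos (by norm_num) h2 (by linarith)
    _ ≤ (2 : ℝ) ^ (-1 : ℝ) := Real.rpow_le_rpow_of_exponent_le (by norm_num) (by linarith)
    _ = 1 / 2 := by rw [Real.rpow_neg_one]; norm_num

theorem wt_antitone {s t : ℝ} (hst : s ≤ t) {I : Ideal (𝓞 K)} (hI : I ≠ ⊥) :
    wt K t I ≤ wt K s I := by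
  unfold wt
  have h1 : (1 : ℝ) ≤ (absNorm I : ℝ) := by
    have : absNorm I ≠ 0 := by rw [Ne, absNorm_eq_zero_iff]; exact hI
    exact_mod_cast Nat.one_le_iff_ne_zero.mpr this
  exact Real.rpow_le_rpow_of_exponent_le h1 (by linarith)


/-! ### The Dedekind zeta function as a sum over ideals -/

variable (K)

/-- The number of ideals of norm `n`. -/
noncomputable def idealCount (n : ℕ) : ℕ := Nat.card {I : Ideal (𝓞 K) // absNorm I = n}

theorem tendsto_sum_idealCount_div :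
    Tendsto (fun n : ℕ ↦ (∑ k ∈ Finset.Icc 1 n, (idealCount K k : ℝ)) / (n : ℝ)) atTop
      (𝓝 (dedekindZeta_residue K)) := by
  unfold idealCount
  refine ((Ideal.tendsto_norm_le_div_atTop₀ K).comp tendsto_natCast_atTop_atTop).congr fun n ↦ ?_
  simp only [Function.comp_apply, Nat.cast_le, ← Nat.cast_sum]
  congr
  rw [← add_left_inj 1, ← card_norm_le_eq_card_norm_le_add_one,
    show Finset.Icc 1 n = Finset.Ioc 0 n from Finset.Icc_succ_left_eq_Ioc _ _,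
    show 1 = Nat.card {I : Ideal (𝓞 K) // absNorm I = 0} by simp [Ideal.absNorm_eq_zero_iff],
    Finset.sum_Ioc_add_eq_sum_Icc (n.zero_le),
    ← Finset.card_preimage_eq_sum_card_image_eq (fun k _ ↦ finite_setOfPred_absNorm_eq k)]
  simp [Set.coe_eq_subtype]

theorem lseriesSummable_idealCount {s : ℝ} (hs : 1 < s) :
    LSeriesSummable (fun n ↦ ((idealCount K n : ℝ) : ℂ)) (s : ℂ) := by
  refine LSeriesSummable_of_sum_norm_bigO_and_nonneg (f := fun n => (idealCount K n : ℝ))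
    ?_ (fun _ ↦ Nat.cast_nonneg _) zero_le_one (by simpa using hs)
  exact Asymptotics.isBigO_atTop_natCast_rpow_of_tendsto_div_rpow
    (a := dedekindZeta_residue K) (by simpa using tendsto_sum_idealCount_div K)


/-- Nonzero ideals of the ring of integers. -/
abbrev NzIdeal : Type _ := {I : Ideal (𝓞 K) // I ≠ ⊥}

/-- The real `L`-series term of the Dedekind zeta function. -/
noncomputable def zterm (s : ℝ) (n : ℕ) : ℝ := if n = 0 then 0 else (idealCount K n : ℝ) * (n : ℝ) ^ (-s)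

theorem zterm_nonneg (s : ℝ) (n : ℕ) : 0 ≤ zterm K s n := by
  unfold zterm; split_ifs <;> positivity

theorem term_eq_zterm (s : ℝ) (n : ℕ) :
    LSeries.term (fun n ↦ ((idealCount K n : ℝ) : ℂ)) (s : ℂ) n = ((zterm K s n : ℝ) : ℂ) := by
  rw [LSeries.term_def, zterm]
  split_ifs with h
  · simp
  · rw [Real.rpow_neg (Nat.cast_nonneg _), Complex.ofReal_mul, Complex.ofReal_inv,
      Complex.ofReal_cpow (Nat.cast_nonneg _), div_eq_mul_inv]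
    simp

theorem summable_zterm {s : ℝ} (hs : 1 < s) : Summable (zterm K s) := by
  have h := lseriesSummable_idealCount K hs
  unfold LSeriesSummable at h
  rw [funext (term_eq_zterm K s)] at h
  exact Complex.summable_ofReal.mp h

theorem dedekindZeta_eq_tsum_zterm (s : ℝ) :
    dedekindZeta K (s : ℂ) = ((∑' n, zterm K s n : ℝ) : ℂ) := by
  have h1 : dedekindZeta K (s : ℂ) = LSeries (fun n ↦ ((idealCount K n : ℝ) : ℂ)) (s : ℂ) := by
    unfold dedekindZeta idealCount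
    congr 1
  rw [h1, LSeries, funext (term_eq_zterm K s), Complex.ofReal_tsum]


instance finite_fiber_absNorm (n : ℕ) : Finite {I : NzIdeal K // absNorm I.1 = n} := by
  have hfin : Finite {I : Ideal (𝓞 K) // absNorm I = n} := (finite_setOfPred_absNorm_eq n).to_subtype
  exact Finite.of_injective (fun I : {I : NzIdeal K // absNorm I.1 = n} =>
      (⟨I.1.1, I.2⟩ : {I : Ideal (𝓞 K) // absNorm I = n}))
    (fun a b h => by
      have : a.1.1 = b.1.1 :=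
        congrArg (fun x : {I : Ideal (𝓞 K) // absNorm I = n} => x.1) h
      exact Subtype.ext (Subtype.ext this))

theorem card_fiber_absNorm {n : ℕ} (hn : n ≠ 0) :
    Nat.card {I : NzIdeal K // absNorm I.1 = n} = idealCount K n := by
  unfold idealCount
  refine Nat.card_congr
    { toFun := fun I => ⟨I.1.1, I.2⟩
      invFun := fun I => ⟨⟨I.1, fun h => hn (by rw [← I.2, h, absNorm_bot])⟩, I.2⟩
      left_inv := fun I => rfl
      right_inv := fun I => rfl }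

theorem tsum_fiber_wt (s : ℝ) (n : ℕ) :
    ∑' I : {I : NzIdeal K // absNorm I.1 = n}, wt K s I.1.1 = zterm K s n := by
  have h1 : ∀ I : {I : NzIdeal K // absNorm I.1 = n}, wt K s I.1.1 = (n : ℝ) ^ (-s) := by
    intro I; unfold wt; rw [I.2]
  rw [tsum_congr h1]
  unfold zterm
  split_ifs with hn
  · subst hn
    have : IsEmpty {I : NzIdeal K // absNorm I.1 = 0} :=
      ⟨fun I => I.1.2 (absNorm_eq_zero_iff.mp I.2)⟩
    exact tsum_empty
  · let _ : Fintype {I : NzIdeal K // absNorm I.1 = n} := Fintype.ofFinite _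
    rw [tsum_fintype, Finset.sum_const, Finset.card_univ, nsmul_eq_mul, ← card_fiber_absNorm K hn,
      Nat.card_eq_fintype_card]

theorem summable_wt_sigma {s : ℝ} (hs : 1 < s) :
    Summable (fun x : (Σ n : ℕ, {I : NzIdeal K // absNorm I.1 = n}) => wt K s x.2.1.1) := by
  rw [summable_sigma_of_nonneg (fun x => wt_nonneg s _)]
  refine ⟨fun n => Summable.of_finite, ?_⟩
  simp_rw [tsum_fiber_wt]
  exact summable_zterm K hs

/-- For `s > 1` the series `∑_{I ≠ 0} N(I)^(-s)` converges. -/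
theorem summable_wt {s : ℝ} (hs : 1 < s) : Summable (fun I : NzIdeal K => wt K s I.1) := by
  have h := summable_wt_sigma K hs
  refine ((Equiv.sigmaFiberEquiv (fun I : NzIdeal K => absNorm I.1)).summable_iff
    (f := fun I : NzIdeal K => wt K s I.1)).mp ?_
  have he : (fun I : NzIdeal K => wt K s I.1) ∘
      (Equiv.sigmaFiberEquiv (fun I : NzIdeal K => absNorm I.1)) =
      (fun x : (Σ n : ℕ, {I : NzIdeal K // absNorm I.1 = n}) => wt K s x.2.1.1) := by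
    funext x
    rfl
  rw [he]
  exact h

/-- The value `ζ_K(s) = ∑_{I ≠ 0} N(I)^(-s)` as a real number. -/
noncomputable def zetaR (s : ℝ) : ℝ := ∑' I : NzIdeal K, wt K s I.1

theorem zetaR_eq_tsum_zterm {s : ℝ} (hs : 1 < s) : zetaR K s = ∑' n, zterm K s n := by
  have h := summable_wt_sigma K hs
  unfold zetaR
  rw [← (Equiv.sigmaFiberEquiv (fun I : NzIdeal K => absNorm I.1)).tsum_eq
    (fun I : NzIdeal K => wt K s I.1)]
  have he : (fun c => wt K s ((Equiv.sigmaFiberEquiv (fun I : NzIdeal K => absNorm I.1)) c).1) =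
      (fun x : (Σ n : ℕ, {I : NzIdeal K // absNorm I.1 = n}) => wt K s x.2.1.1) := by
    funext x
    rfl
  rw [he, Summable.tsum_sigma' (fun n => Summable.of_finite) h]
  simp_rw [tsum_fiber_wt]

theorem dedekindZeta_eq_zetaR {s : ℝ} (hs : 1 < s) :
    dedekindZeta K (s : ℂ) = ((zetaR K s : ℝ) : ℂ) := by
  rw [dedekindZeta_eq_tsum_zterm, zetaR_eq_tsum_zterm K hs]


/-! ### Unique factorisation input -/

variable {K}

theorem asIdeal_eq_of_dvd {𝔭 𝔮 : HeightOneSpectrum (𝓞 K)} (h : 𝔭.asIdeal ∣ 𝔮.asIdeal) : 𝔭 = 𝔮 := by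
  have hle : 𝔮.asIdeal ≤ 𝔭.asIdeal := Ideal.le_of_dvd h
  have hmax : 𝔮.asIdeal.IsMaximal := 𝔮.isMaximal
  exact HeightOneSpectrum.ext (hmax.eq_of_le 𝔭.isPrime.ne_top hle).symm

theorem prod_asIdeal_ne_bot (F : Finset (HeightOneSpectrum (𝓞 K))) :
    ∏ 𝔭 ∈ F, 𝔭.asIdeal ≠ ⊥ := by
  rw [← Ideal.zero_eq_bot, Finset.prod_ne_zero_iff]
  intro 𝔭 _
  exact 𝔭.ne_bot

theorem prod_asIdeal_injective :
    Function.Injective (fun F : Finset (HeightOneSpectrum (𝓞 K)) => ∏ 𝔭 ∈ F, 𝔭.asIdeal) := by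
  classical
  have key : ∀ F G : Finset (HeightOneSpectrum (𝓞 K)),
      ∏ 𝔭 ∈ F, 𝔭.asIdeal = ∏ 𝔭 ∈ G, 𝔭.asIdeal → F ⊆ G := by
    intro F G h 𝔭 h𝔭
    have hdvd : 𝔭.asIdeal ∣ ∏ 𝔮 ∈ G, 𝔮.asIdeal := h ▸ Finset.dvd_prod_of_mem _ h𝔭
    obtain ⟨𝔮, h𝔮, h𝔭𝔮⟩ := (Prime.dvd_finsetProd_iff 𝔭.prime _).mp hdvd
    rw [asIdeal_eq_of_dvd h𝔭𝔮]
    exact h𝔮
  intro F G h
  exact Finset.Subset.antisymm (key F G h) (key G F h.symm)

variable (K)

/-- Lower bound: squarefree part of the Euler product. -/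
theorem prod_one_add_wt_le_zetaR {s : ℝ} (hs : 1 < s) (F : Finset (HeightOneSpectrum (𝓞 K))) :
    ∏ 𝔭 ∈ F, (1 + wt K s 𝔭.asIdeal) ≤ zetaR K s := by
  classical
  rw [Finset.prod_one_add]
  let g : Finset (HeightOneSpectrum (𝓞 K)) → NzIdeal K :=
    fun t => ⟨∏ 𝔭 ∈ t, 𝔭.asIdeal, prod_asIdeal_ne_bot t⟩
  have hg : Function.Injective g := by
    intro t t' h
    exact prod_asIdeal_injective (congrArg Subtype.val h)
  have h1 : ∑ t ∈ F.powerset, ∏ i ∈ t, wt K s i.asIdeal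
      = ∑ I ∈ F.powerset.image g, wt K s I.1 := by
    rw [Finset.sum_image (fun a _ b _ h => hg h)]
    refine Finset.sum_congr rfl fun t _ => ?_
    rw [← wt_prod]
  rw [h1]
  exact (summable_wt K hs).sum_le_tsum _ (fun I _ => wt_nonneg s _)

variable {K}

theorem exists_factorization (I : NzIdeal K) :
    ∃ (c : HeightOneSpectrum (𝓞 K) → ℕ) (F₀ : Finset (HeightOneSpectrum (𝓞 K))),
      ∀ F : Finset (HeightOneSpectrum (𝓞 K)), F₀ ⊆ F → I.1 = ∏ v ∈ F, v.asIdeal ^ c v := by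
  have hI : I.1 ≠ 0 := I.2
  have hfin := Ideal.hasFiniteMulSupport hI
  refine ⟨fun v => (Associates.mk v.asIdeal).count (Associates.mk I.1).factors,
    hfin.toFinset, fun F hF => ?_⟩
  have h := Ideal.finprod_heightOneSpectrum_factorization hI
  rw [finprod_eq_prod_of_mulSupport_subset (s := F)] at h
  · exact h.symm
  · intro v hv
    exact hF (hfin.mem_toFinset.mpr hv)

variable (K)

/-- Upper bound: finite partial sums are bounded by finite Euler products. -/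
theorem sum_wt_le_prod_geom (s : ℝ) (T : Finset (NzIdeal K)) :
    ∃ (F : Finset (HeightOneSpectrum (𝓞 K))) (N : ℕ),
      ∑ I ∈ T, wt K s I.1 ≤ ∏ 𝔭 ∈ F, ∑ k ∈ Finset.range (N + 1), wt K s 𝔭.asIdeal ^ k := by
  classical
  choose c F₀ hc using fun I : NzIdeal K => exists_factorization I
  let F : Finset (HeightOneSpectrum (𝓞 K)) := T.biUnion F₀
  let N : ℕ := T.sup fun I => F.sup (c I)
  refine ⟨F, N, ?_⟩
  rw [Finset.prod_sum]
  let P : NzIdeal K → (∀ a, a ∈ F → ℕ) := fun I a _ => c I a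
  have hP : ∀ I ∈ T, P I ∈ F.pi fun _ => Finset.range (N + 1) := by
    intro I hI
    rw [Finset.mem_pi]
    intro a ha
    rw [Finset.mem_range, Nat.lt_succ_iff]
    exact le_trans (Finset.le_sup (f := c I) ha) (Finset.le_sup (f := fun I => F.sup (c I)) hI)
  have hfac : ∀ I ∈ T, I.1 = ∏ x ∈ F.attach, x.1.asIdeal ^ P I x.1 x.2 := by
    intro I hI
    rw [hc I F (Finset.subset_biUnion_of_mem F₀ hI)]
    exact (Finset.prod_attach F (fun v => v.asIdeal ^ c I v)).symm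
  have hinj : ∀ I ∈ T, ∀ J ∈ T, P I = P J → I = J := by
    intro I hI J hJ h
    apply Subtype.ext
    rw [hfac I hI, hfac J hJ, h]
  have h1 : ∑ I ∈ T, wt K s I.1
      = ∑ p ∈ T.image P, ∏ x ∈ F.attach, wt K s x.1.asIdeal ^ p x.1 x.2 := by
    rw [Finset.sum_image hinj]
    refine Finset.sum_congr rfl fun I hI => ?_
    conv_lhs => rw [hfac I hI]
    rw [wt_prod]
    refine Finset.prod_congr rfl fun x _ => ?_
    rw [wt_pow]
  rw [h1]
  refine Finset.sum_le_sum_of_subset_of_nonneg ?_ ?_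
  · intro p hp
    obtain ⟨I, hI, rfl⟩ := Finset.mem_image.mp hp
    exact hP I hI
  · intro p _ _
    exact Finset.prod_nonneg fun x _ => pow_nonneg (wt_nonneg s _) _


/-! ### The prime sum -/

/-- The weight function on primes. -/
noncomputable def pw (s : ℝ) (𝔭 : HeightOneSpectrum (𝓞 K)) : ℝ := wt K s 𝔭.asIdeal

variable {K}

theorem pw_nonneg (s : ℝ) (𝔭 : HeightOneSpectrum (𝓞 K)) : 0 ≤ pw K s 𝔭 := wt_nonneg s _

theorem pw_le_half {s : ℝ} (hs : 1 ≤ s) (𝔭 : HeightOneSpectrum (𝓞 K)) : pw K s 𝔭 ≤ 1 / 2 :=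
  wt_prime_le_half hs 𝔭

theorem pw_eq (s : ℝ) (𝔭 : HeightOneSpectrum (𝓞 K)) :
    pw K s 𝔭 = (absNorm 𝔭.asIdeal : ℝ) ^ (-s) := rfl

theorem pw_sq_le {s : ℝ} (hs : 1 ≤ s) (𝔭 : HeightOneSpectrum (𝓞 K)) :
    pw K s 𝔭 ^ 2 ≤ pw K 2 𝔭 := by
  have h1 : (1 : ℝ) ≤ (absNorm 𝔭.asIdeal : ℝ) := by
    have := two_le_absNorm 𝔭
    exact_mod_cast (by omega : 1 ≤ absNorm 𝔭.asIdeal)
  rw [pw_eq, pw_eq, ← Real.rpow_natCast, ← Real.rpow_mul (Nat.cast_nonneg _)]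
  exact Real.rpow_le_rpow_of_exponent_le h1 (by push_cast; linarith)

variable (K)

theorem summable_pw {s : ℝ} (hs : 1 < s) : Summable (pw K s) := by
  have hinj : Function.Injective
      (fun 𝔭 : HeightOneSpectrum (𝓞 K) => (⟨𝔭.asIdeal, 𝔭.ne_bot⟩ : NzIdeal K)) := by
    intro a b h
    exact HeightOneSpectrum.ext (congrArg Subtype.val h)
  have h := (summable_wt K hs).comp_injective hinj
  exact h.congr (fun 𝔭 => rfl)

/-- The constant `Q = ∑_𝔭 N𝔭^(-2)`. -/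
noncomputable def Qc : ℝ := ∑' 𝔭 : HeightOneSpectrum (𝓞 K), pw K 2 𝔭

theorem Qc_nonneg : 0 ≤ Qc K := tsum_nonneg fun 𝔭 => pw_nonneg 2 𝔭

theorem sum_pw_sq_le_Qc {s : ℝ} (hs : 1 ≤ s) (F : Finset (HeightOneSpectrum (𝓞 K))) :
    ∑ 𝔭 ∈ F, pw K s 𝔭 ^ 2 ≤ Qc K :=
  le_trans (Finset.sum_le_sum fun 𝔭 _ => pw_sq_le hs 𝔭)
    ((summable_pw K (by norm_num : (1 : ℝ) < 2)).sum_le_tsum F (fun 𝔭 _ => pw_nonneg 2 𝔭))

theorem zetaR_pos {s : ℝ} (hs : 1 < s) : 0 < zetaR K s := by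
  have h := prod_one_add_wt_le_zetaR K hs ∅
  rw [Finset.prod_empty] at h
  linarith

/-- `∑_{𝔭 ∈ F} N𝔭^(-s) ≤ log ζ_K(s) + Q`. -/
theorem sum_pw_le_log_zetaR {s : ℝ} (hs : 1 < s) (F : Finset (HeightOneSpectrum (𝓞 K))) :
    ∑ 𝔭 ∈ F, pw K s 𝔭 ≤ Real.log (zetaR K s) + Qc K := by
  have h1 : ∏ 𝔭 ∈ F, (1 + pw K s 𝔭) ≤ zetaR K s := prod_one_add_wt_le_zetaR K hs F
  have hpos : ∀ 𝔭 ∈ F, (0 : ℝ) < 1 + pw K s 𝔭 := fun 𝔭 _ => by
    have := pw_nonneg s 𝔭; linarith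
  have h2 : Real.log (∏ 𝔭 ∈ F, (1 + pw K s 𝔭)) ≤ Real.log (zetaR K s) :=
    Real.log_le_log (Finset.prod_pos hpos) h1
  rw [Real.log_prod (fun 𝔭 h𝔭 => (hpos 𝔭 h𝔭).ne')] at h2
  have h3 : ∀ 𝔭 ∈ F, pw K s 𝔭 - pw K s 𝔭 ^ 2 ≤ Real.log (1 + pw K s 𝔭) := by
    intro 𝔭 h𝔭
    have hx := pw_nonneg s 𝔭
    have hl := Real.one_sub_inv_le_log_of_pos (hpos 𝔭 h𝔭)
    have h1x : (0 : ℝ) < 1 + pw K s 𝔭 := hpos 𝔭 h𝔭
    have : (1 + pw K s 𝔭)⁻¹ ≤ 1 - pw K s 𝔭 + pw K s 𝔭 ^ 2 := by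
      rw [inv_le_iff_one_le_mul₀ h1x]
      nlinarith [mul_nonneg hx hx, mul_nonneg (mul_nonneg hx hx) hx]
    linarith
  have h4 : ∑ 𝔭 ∈ F, (pw K s 𝔭 - pw K s 𝔭 ^ 2) ≤ Real.log (zetaR K s) :=
    le_trans (Finset.sum_le_sum h3) h2
  rw [Finset.sum_sub_distrib] at h4
  have h5 := sum_pw_sq_le_Qc K hs.le F
  linarith

/-- `ζ_K(s) ≤ exp (∑_𝔭 N𝔭^(-s) + 2 Q)`. -/
theorem zetaR_le_exp {s : ℝ} (hs : 1 < s) :
    zetaR K s ≤ Real.exp (∑' 𝔭, pw K s 𝔭 + 2 * Qc K) := by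
  refine Real.tsum_le_of_sum_le (fun I => wt_nonneg s _) fun T => ?_
  obtain ⟨F, N, hFN⟩ := sum_wt_le_prod_geom K s T
  refine le_trans hFN ?_
  have hterm : ∀ 𝔭 ∈ F, ∑ k ∈ Finset.range (N + 1), wt K s 𝔭.asIdeal ^ k
      ≤ Real.exp (pw K s 𝔭 + 2 * pw K s 𝔭 ^ 2) := by
    intro 𝔭 _
    have hx : 0 ≤ pw K s 𝔭 := pw_nonneg s 𝔭
    have hx2 : pw K s 𝔭 ≤ 1 / 2 := pw_le_half hs.le 𝔭
    have hgeom := geom_sum_mul_neg (pw K s 𝔭) (N + 1)
    have hpow : 0 ≤ pw K s 𝔭 ^ (N + 1) := pow_nonneg hx _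
    have h1 : (∑ k ∈ Finset.range (N + 1), pw K s 𝔭 ^ k) * (1 - pw K s 𝔭) ≤ 1 := by
      rw [hgeom]; linarith
    have h2 : (∑ k ∈ Finset.range (N + 1), pw K s 𝔭 ^ k) ≤ 1 + pw K s 𝔭 + 2 * pw K s 𝔭 ^ 2 := by
      have hS : 0 ≤ ∑ k ∈ Finset.range (N + 1), pw K s 𝔭 ^ k :=
        Finset.sum_nonneg fun k _ => pow_nonneg hx _
      have h3 : 1 ≤ (1 + pw K s 𝔭 + 2 * pw K s 𝔭 ^ 2) * (1 - pw K s 𝔭) := by
        nlinarith [mul_nonneg hx hx, mul_nonneg (mul_nonneg hx hx) (by linarith : (0:ℝ) ≤ 1 - 2 * pw K s 𝔭)]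
      have h4 : (0 : ℝ) < 1 - pw K s 𝔭 := by linarith
      by_contra hcon
      have := mul_lt_mul_of_pos_right (not_le.mp hcon) h4
      linarith
    have h3 := Real.add_one_le_exp (pw K s 𝔭 + 2 * pw K s 𝔭 ^ 2)
    show ∑ k ∈ Finset.range (N + 1), pw K s 𝔭 ^ k ≤ _
    linarith
  refine le_trans (Finset.prod_le_prod (fun 𝔭 _ => Finset.sum_nonneg fun k _ =>
    pow_nonneg (wt_nonneg s _) _) hterm) ?_
  rw [← Real.exp_sum]
  refine Real.exp_le_exp.mpr ?_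
  rw [Finset.sum_add_distrib, ← Finset.mul_sum]
  have h1 := (summable_pw K hs).sum_le_tsum F (fun 𝔭 _ => pw_nonneg s 𝔭)
  have h2 := sum_pw_sq_le_Qc K hs.le F
  linarith

/-- The prime sum is within `2Q` of `log ζ_K(s)`. -/
theorem abs_tsum_pw_sub_log_zetaR_le {s : ℝ} (hs : 1 < s) :
    |∑' 𝔭, pw K s 𝔭 - Real.log (zetaR K s)| ≤ 2 * Qc K := by
  have hQ := Qc_nonneg K
  have h1 : ∑' 𝔭, pw K s 𝔭 ≤ Real.log (zetaR K s) + Qc K :=
    Real.tsum_le_of_sum_le (fun 𝔭 => pw_nonneg s 𝔭) fun F => sum_pw_le_log_zetaR K hs F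
  have h2 : Real.log (zetaR K s) ≤ ∑' 𝔭, pw K s 𝔭 + 2 * Qc K := by
    have := Real.log_le_log (zetaR_pos K hs) (zetaR_le_exp K hs)
    rwa [Real.log_exp] at this
  rw [abs_le]
  constructor <;> linarith


/-! ### Behaviour at `s → 1⁺` -/

theorem tendsto_sub_one_mul_zetaR :
    Tendsto (fun s : ℝ => (s - 1) * zetaR K s) (𝓝[>] 1) (𝓝 (dedekindZeta_residue K)) := by
  have h := tendsto_sub_one_mul_dedekindZeta_nhdsGT K
  have h2 : Tendsto (Complex.re ∘ fun s : ℝ => ((s : ℂ) - 1) * dedekindZeta K s) (𝓝[>] 1)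
      (𝓝 (Complex.re (dedekindZeta_residue K : ℂ))) :=
    (Complex.continuous_re.tendsto _).comp h
  rw [Complex.ofReal_re] at h2
  refine h2.congr' ?_
  filter_upwards [self_mem_nhdsWithin] with s hs
  rw [Function.comp_apply, dedekindZeta_eq_zetaR K hs, ← Complex.ofReal_one, ← Complex.ofReal_sub,
    ← Complex.ofReal_mul, Complex.ofReal_re]

theorem exists_bound_log_zetaR :
    ∃ C δ : ℝ, 0 < δ ∧ ∀ s : ℝ, 1 < s → s < 1 + δ →
      |Real.log (zetaR K s) - Real.log (1 / (s - 1))| ≤ C := by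
  have hρ := dedekindZeta_residue_pos K
  set ρ := dedekindZeta_residue K with hρdef
  have hev : ∀ᶠ s in 𝓝[>] (1 : ℝ), (s - 1) * zetaR K s ∈ Set.Ioo (ρ / 2) (2 * ρ) :=
    (tendsto_sub_one_mul_zetaR K).eventually (Ioo_mem_nhds (by linarith) (by linarith))
  obtain ⟨u, hu, hsub⟩ := ((nhdsGT_basis (1 : ℝ)).eventually_iff).mp hev
  refine ⟨max |Real.log (ρ / 2)| |Real.log (2 * ρ)|, u - 1, by linarith, fun s hs1 hs2 => ?_⟩
  have hmem := hsub (show s ∈ Set.Ioo 1 u from ⟨hs1, by linarith⟩)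
  have hs0 : (0 : ℝ) < s - 1 := by linarith
  have hz := zetaR_pos K hs1
  have heq : Real.log (zetaR K s) - Real.log (1 / (s - 1)) = Real.log ((s - 1) * zetaR K s) := by
    rw [one_div, Real.log_inv, Real.log_mul hs0.ne' hz.ne']
    ring
  rw [heq]
  have h1 : Real.log (ρ / 2) ≤ Real.log ((s - 1) * zetaR K s) :=
    Real.log_le_log (by linarith) hmem.1.le
  have h2 : Real.log ((s - 1) * zetaR K s) ≤ Real.log (2 * ρ) :=
    Real.log_le_log (by linarith [hmem.1]) hmem.2.le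
  rw [abs_le]
  constructor
  · have := neg_abs_le (Real.log (ρ / 2))
    have := le_max_left |Real.log (ρ / 2)| |Real.log (2 * ρ)|
    linarith
  · have := le_abs_self (Real.log (2 * ρ))
    have := le_max_right |Real.log (ρ / 2)| |Real.log (2 * ρ)|
    linarith

/-- The sum over all primes `∑_𝔭 N𝔭^(-s)` is `log (1/(s-1)) + O(1)` as `s → 1⁺`. -/
theorem tsum_pw_sub_log_bounded :
    ∃ C δ : ℝ, 0 < δ ∧ ∀ s : ℝ, 1 < s → s < 1 + δ →
      |∑' 𝔭, pw K s 𝔭 - Real.log (1 / (s - 1))| ≤ C := by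
  obtain ⟨C, δ, hδ, h⟩ := exists_bound_log_zetaR K
  refine ⟨2 * Qc K + C, δ, hδ, fun s hs1 hs2 => ?_⟩
  have h1 := abs_tsum_pw_sub_log_zetaR_le K hs1
  have h2 := h s hs1 hs2
  calc |∑' 𝔭, pw K s 𝔭 - Real.log (1 / (s - 1))|
      = |(∑' 𝔭, pw K s 𝔭 - Real.log (zetaR K s)) +
          (Real.log (zetaR K s) - Real.log (1 / (s - 1)))| := by ring_nf
    _ ≤ |∑' 𝔭, pw K s 𝔭 - Real.log (zetaR K s)| +
          |Real.log (zetaR K s) - Real.log (1 / (s - 1))| := abs_add_le _ _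
    _ ≤ 2 * Qc K + C := add_le_add h1 h2

theorem primeIdealZetaSum_eq (S : Set (HeightOneSpectrum (𝓞 K))) (s : ℝ) :
    NumberField.Set.primeIdealZetaSum S s = ∑' 𝔭 : S, pw K s 𝔭.1 := rfl

theorem primeIdealZetaSum_univ_eq (s : ℝ) :
    NumberField.Set.primeIdealZetaSum (Set.univ : Set (HeightOneSpectrum (𝓞 K))) s
      = ∑' 𝔭, pw K s 𝔭 := by
  rw [primeIdealZetaSum_eq, tsum_univ]

/-- **F1** (all primes): `∑_𝔭 N𝔭^(-s) = log (1/(s-1)) + O(1)` as `s → 1⁺`. -/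
theorem primeIdealZetaSum_univ_sub_log_bounded :
    ∃ C δ : ℝ, 0 < δ ∧ ∀ s : ℝ, 1 < s → s < 1 + δ →
      |NumberField.Set.primeIdealZetaSum (Set.univ : Set (HeightOneSpectrum (𝓞 K))) s
        - Real.log (1 / (s - 1))| ≤ C := by
  obtain ⟨C, δ, hδ, h⟩ := tsum_pw_sub_log_bounded K
  exact ⟨C, δ, hδ, fun s hs1 hs2 => by rw [primeIdealZetaSum_univ_eq]; exact h s hs1 hs2⟩


/-- For `s > 1` the prime ideal zeta series converges. -/
theorem summable_absNorm_rpow {s : ℝ} (hs : 1 < s) :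
    Summable fun 𝔭 : HeightOneSpectrum (𝓞 K) => (Ideal.absNorm 𝔭.asIdeal : ℝ) ^ (-s) :=
  summable_pw K hs

/-- The primes of degree one: those whose absolute norm is a prime number. -/
def degOne : Set (HeightOneSpectrum (𝓞 K)) := {𝔭 | (Ideal.absNorm 𝔭.asIdeal).Prime}


/-! ### Primes of degree one -/

/-- At most `[K:ℚ]` primes lie over a rational prime. -/
theorem card_le_finrank_of_natCast_mem {p : ℕ} (hp : p.Prime)
    (G : Finset (HeightOneSpectrum (𝓞 K)))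
    (hG : ∀ 𝔭 ∈ G, (p : 𝓞 K) ∈ 𝔭.asIdeal ∧ p ∣ absNorm 𝔭.asIdeal) :
    G.card ≤ Module.finrank ℤ (𝓞 K) := by
  classical
  have hdvd : ∏ 𝔭 ∈ G, 𝔭.asIdeal ∣ Ideal.span {(p : 𝓞 K)} := by
    have hinj : Set.InjOn (fun 𝔭 : HeightOneSpectrum (𝓞 K) => 𝔭.asIdeal) (G : Set _) :=
      fun a _ b _ h => HeightOneSpectrum.ext h
    rw [← Finset.prod_image (f := fun I : Ideal (𝓞 K) => I) hinj]
    refine Finset.prod_primes_dvd _ ?_ ?_
    · intro I hI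
      obtain ⟨𝔭, _, rfl⟩ := Finset.mem_image.mp hI
      exact 𝔭.prime
    · intro I hI
      obtain ⟨𝔭, h𝔭, rfl⟩ := Finset.mem_image.mp hI
      exact Ideal.dvd_span_singleton.mpr (hG 𝔭 h𝔭).1
  have h1 : absNorm (∏ 𝔭 ∈ G, 𝔭.asIdeal) ∣ absNorm (Ideal.span {(p : 𝓞 K)}) :=
    absNorm_dvd_absNorm_of_le (Ideal.le_of_dvd hdvd)
  rw [map_prod, absNorm_span_natCast] at h1
  have h2 : p ^ G.card ∣ ∏ 𝔭 ∈ G, absNorm 𝔭.asIdeal := by
    rw [← Finset.prod_const]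
    exact Finset.prod_dvd_prod_of_dvd _ _ fun 𝔭 h𝔭 => (hG 𝔭 h𝔭).2
  exact (Nat.pow_dvd_pow_iff_le_right hp.one_lt).mp (h2.trans h1)

/-- The constant bounding the contribution of the primes of degree `≥ 2`. -/
noncomputable def Dc : ℝ := (Module.finrank ℤ (𝓞 K) : ℝ) * ∑' m : ℕ, ((m : ℝ) ^ 2)⁻¹

theorem Dc_nonneg : 0 ≤ Dc K :=
  mul_nonneg (Nat.cast_nonneg _) (tsum_nonneg fun m => by positivity)

/-- Finite sums of `N𝔭^(-s)` over primes of degree `≥ 2` are uniformly bounded for `s ≥ 1`. -/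
theorem sum_pw_not_degOne_le {s : ℝ} (hs : 1 ≤ s) (F : Finset (HeightOneSpectrum (𝓞 K)))
    (hF : ∀ 𝔭 ∈ F, 𝔭 ∉ degOne K) : ∑ 𝔭 ∈ F, pw K s 𝔭 ≤ Dc K := by
  classical
  have hex : ∀ 𝔭 : HeightOneSpectrum (𝓞 K), ∃ p n : ℕ, 0 < n ∧ (p : 𝓞 K) ∈ 𝔭.asIdeal ∧
      p.Prime ∧ absNorm 𝔭.asIdeal = p ^ n := fun 𝔭 =>
    haveI : 𝔭.asIdeal.IsMaximal := 𝔭.isMaximal
    Ideal.exists_prime_and_absNorm_eq_pow 𝔭.asIdeal
  choose c f hf hcmem hcprime hnorm using hex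
  have hsum2 : Summable fun m : ℕ => ((m : ℝ) ^ 2)⁻¹ := Real.summable_nat_pow_inv.mpr (by norm_num)
  -- pointwise bound
  have hpt : ∀ 𝔭 ∈ F, pw K s 𝔭 ≤ ((c 𝔭 : ℝ) ^ 2)⁻¹ := by
    intro 𝔭 h𝔭
    have hf2 : 2 ≤ f 𝔭 := by
      by_contra hcon
      have hf1 : f 𝔭 = 1 := by have := hf 𝔭; omega
      apply hF 𝔭 h𝔭
      show (absNorm 𝔭.asIdeal).Prime
      rw [hnorm 𝔭, hf1, pow_one]
      exact hcprime 𝔭
    have hc1 : 1 ≤ c 𝔭 := (hcprime 𝔭).one_lt.le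
    have hle : (c 𝔭 : ℝ) ^ 2 ≤ (absNorm 𝔭.asIdeal : ℝ) := by
      rw [hnorm 𝔭]
      exact_mod_cast Nat.pow_le_pow_right hc1 hf2
    have hcpos : (0 : ℝ) < (c 𝔭 : ℝ) ^ 2 := by
      have : (0 : ℝ) < c 𝔭 := by exact_mod_cast (hcprime 𝔭).pos
      positivity
    have hN1 : (1 : ℝ) ≤ (absNorm 𝔭.asIdeal : ℝ) := le_trans (by
      have : (1 : ℝ) ≤ c 𝔭 := by exact_mod_cast hc1
      nlinarith) hle
    calc pw K s 𝔭 = (absNorm 𝔭.asIdeal : ℝ) ^ (-s) := rfl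
      _ ≤ (absNorm 𝔭.asIdeal : ℝ) ^ (-1 : ℝ) :=
          Real.rpow_le_rpow_of_exponent_le hN1 (by linarith)
      _ = ((absNorm 𝔭.asIdeal : ℝ))⁻¹ := Real.rpow_neg_one _
      _ ≤ ((c 𝔭 : ℝ) ^ 2)⁻¹ := inv_anti₀ hcpos hle
  refine le_trans (Finset.sum_le_sum hpt) ?_
  rw [← Finset.sum_fiberwise_of_maps_to (t := F.image c) (g := c)
    (fun 𝔭 h𝔭 => Finset.mem_image_of_mem c h𝔭)]
  have hfib : ∀ p ∈ F.image c, ∑ 𝔭 ∈ F with c 𝔭 = p, ((c 𝔭 : ℝ) ^ 2)⁻¹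
      ≤ (Module.finrank ℤ (𝓞 K) : ℝ) * ((p : ℝ) ^ 2)⁻¹ := by
    intro p hp
    obtain ⟨𝔮, _, rfl⟩ := Finset.mem_image.mp hp
    have hcard : (F.filter fun 𝔭 => c 𝔭 = c 𝔮).card ≤ Module.finrank ℤ (𝓞 K) := by
      refine card_le_finrank_of_natCast_mem K (hcprime 𝔮) _ fun 𝔭 h𝔭 => ?_
      have hc : c 𝔭 = c 𝔮 := (Finset.mem_filter.mp h𝔭).2
      refine ⟨hc ▸ hcmem 𝔭, ?_⟩
      rw [hnorm 𝔭, hc]
      exact dvd_pow_self _ (hf 𝔭).ne'
    have hconst : ∑ 𝔭 ∈ F with c 𝔭 = c 𝔮, ((c 𝔭 : ℝ) ^ 2)⁻¹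
        = ((F.filter fun 𝔭 => c 𝔭 = c 𝔮).card : ℝ) * ((c 𝔮 : ℝ) ^ 2)⁻¹ := by
      rw [Finset.sum_congr rfl (fun 𝔭 h𝔭 => by rw [(Finset.mem_filter.mp h𝔭).2] :
        ∀ 𝔭 ∈ F.filter (fun 𝔭 => c 𝔭 = c 𝔮), ((c 𝔭 : ℝ) ^ 2)⁻¹ = ((c 𝔮 : ℝ) ^ 2)⁻¹)]
      rw [Finset.sum_const, nsmul_eq_mul]
    rw [hconst]
    exact mul_le_mul_of_nonneg_right (by exact_mod_cast hcard) (by positivity)
  refine le_trans (Finset.sum_le_sum hfib) ?_
  rw [← Finset.mul_sum]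
  exact mul_le_mul_of_nonneg_left (hsum2.sum_le_tsum _ (fun m _ => by positivity))
    (Nat.cast_nonneg _)

theorem tsum_pw_not_degOne_le {s : ℝ} (hs : 1 ≤ s) :
    ∑' 𝔭 : ↥(degOne K)ᶜ, pw K s 𝔭.1 ≤ Dc K := by
  classical
  refine Real.tsum_le_of_sum_le (fun 𝔭 => pw_nonneg s 𝔭.1) fun F => ?_
  have h := sum_pw_not_degOne_le K hs (F.map (Function.Embedding.subtype _)) (by
    intro 𝔭 h𝔭
    obtain ⟨x, _, rfl⟩ := Finset.mem_map.mp h𝔭
    exact x.2)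
  rwa [Finset.sum_map] at h

theorem tsum_pw_not_degOne_nonneg (s : ℝ) : 0 ≤ ∑' 𝔭 : ↥(degOne K)ᶜ, pw K s 𝔭.1 :=
  tsum_nonneg fun 𝔭 => pw_nonneg s 𝔭.1

/-- Decomposition of the full prime sum into degree one and the rest. -/
theorem tsum_degOne_add_tsum_compl {s : ℝ} (hs : 1 < s) :
    ∑' 𝔭 : ↥(degOne K), pw K s 𝔭.1 + ∑' 𝔭 : ↥(degOne K)ᶜ, pw K s 𝔭.1 = ∑' 𝔭, pw K s 𝔭 :=
  (summable_pw K hs).tsum_subtype_add_tsum_subtype_compl (degOne K)

/-- **F1** (degree-one primes): `∑_{𝔭 of degree one} N𝔭^(-s) = log (1/(s-1)) + O(1)`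
as `s → 1⁺`. -/
theorem primeIdealZetaSum_degOne_sub_log_bounded :
    ∃ C δ : ℝ, 0 < δ ∧ ∀ s : ℝ, 1 < s → s < 1 + δ →
      |NumberField.Set.primeIdealZetaSum (degOne K) s - Real.log (1 / (s - 1))| ≤ C := by
  obtain ⟨C, δ, hδ, h⟩ := tsum_pw_sub_log_bounded K
  refine ⟨C + Dc K, δ, hδ, fun s hs1 hs2 => ?_⟩
  have h1 := h s hs1 hs2
  have h2 := tsum_degOne_add_tsum_compl K hs1
  have h3 := tsum_pw_not_degOne_le K hs1.le
  have h4 := tsum_pw_not_degOne_nonneg K s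
  rw [primeIdealZetaSum_eq]
  rw [abs_le] at h1 ⊢
  constructor <;> linarith [h1.1, h1.2]


/-! ### Small API for subsets of primes -/

theorem summable_pw_subtype (S : Set (HeightOneSpectrum (𝓞 K))) {s : ℝ} (hs : 1 < s) :
    Summable fun 𝔭 : S => pw K s 𝔭.1 :=
  (summable_pw K hs).subtype S

theorem primeIdealZetaSum_nonneg' (S : Set (HeightOneSpectrum (𝓞 K))) (s : ℝ) :
    0 ≤ NumberField.Set.primeIdealZetaSum S s :=
  tsum_nonneg fun 𝔭 => pw_nonneg s 𝔭.1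

theorem primeIdealZetaSum_mono {S T : Set (HeightOneSpectrum (𝓞 K))} (h : S ⊆ T) {s : ℝ}
    (hs : 1 < s) :
    NumberField.Set.primeIdealZetaSum S s ≤ NumberField.Set.primeIdealZetaSum T s := by
  rw [primeIdealZetaSum_eq, primeIdealZetaSum_eq]
  have hS := summable_pw_subtype K S hs
  have hT := summable_pw_subtype K T hs
  refine Real.tsum_le_of_sum_le (fun 𝔭 => pw_nonneg s 𝔭.1) fun F => ?_
  classical
  have h1 : ∑ x ∈ F, pw K s x.1 = ∑ y ∈ F.map ⟨Set.inclusion h, Set.inclusion_injective h⟩,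
      pw K s y.1 := by
    rw [Finset.sum_map]
    rfl
  rw [h1]
  exact hT.sum_le_tsum _ (fun 𝔭 _ => pw_nonneg s 𝔭.1)

theorem primeIdealZetaSum_union {S T : Set (HeightOneSpectrum (𝓞 K))} (h : Disjoint S T) {s : ℝ}
    (hs : 1 < s) :
    NumberField.Set.primeIdealZetaSum (S ∪ T) s
      = NumberField.Set.primeIdealZetaSum S s + NumberField.Set.primeIdealZetaSum T s := by
  rw [primeIdealZetaSum_eq, primeIdealZetaSum_eq, primeIdealZetaSum_eq]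
  exact (summable_pw_subtype K S hs).tsum_union_disjoint h (summable_pw_subtype K T hs)

/-- A set of primes whose zeta sum is unbounded near `1⁺` is infinite. -/
theorem infinite_of_primeIdealZetaSum_unbounded (S : Set (HeightOneSpectrum (𝓞 K)))
    (h : ∀ B : ℝ, ∀ δ : ℝ, 0 < δ → ∃ s : ℝ, 1 < s ∧ s < 1 + δ ∧
      B < NumberField.Set.primeIdealZetaSum S s) : S.Infinite := by
  intro hfin
  obtain ⟨s, hs1, _, hs⟩ := h (S.ncard : ℝ) 1 one_pos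
  have := NumberField.Set.primeIdealZetaSum_le_card_of_finite hfin (s := s) (by linarith)
  linarith

end Fermat.Agent.Lib.Frob
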