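import Mathlib

/-!
# Splitting of primes in abelian extensions of number fields (algebraic input of FROB)

`M ⊆ E ⊆ L` number fields, `L/M` Galois.  Primes are `IsDedekindDomain.HeightOneSpectrum (𝓞 _)`.

* `AbSplit.unramSet M L`, `AbSplit.finite_compl_unramSet`: all but finitely many primes of `M` are
  unramified in `L`.
* `AbSplit.exists_frob`: if `Gal(L/M)` is commutative, every prime `q` of `M` has a Frobenius
  element `σ` which is an arithmetic Frobenius at every prime of `L` over `q`.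
* `AbSplit.card_fiber_of_fix`, `AbSplit.absNorm_eq_of_fix`: if `σ` fixes `E` (and `E/M` is Galois,
  `q` unramified in `L`) then there are exactly `[E:M]` primes of `E` over `q`, all of the same
  absolute norm as `q`.
* `AbSplit.not_prime_absNorm_of_not_fix`: if `σ` does not fix `E`, no prime of `E` over `q` has
  prime absolute norm.
* `AbSplit.prime_absNorm_under`: a prime of `E` of prime absolute norm lies over a prime of `M` of
  the same (prime) absolute norm.
* `AbSplit.inertia_eq_bot_of_not_dvd_discr`: for `L/ℚ` Galois, `p ∤ disc L` implies trivial inertia.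
-/

open NumberField IsDedekindDomain

namespace Fermat.Agent.Lib.Frob.AbSplit

open scoped Pointwise

/-! ### Norms -/

section Norm

variable (K : Type*) {F : Type*} [Field K] [NumberField K] [Field F] [NumberField F] [Algebra K F]

/-- `N w = N (w ∩ K) ^ f`. -/
theorem absNorm_eq_pow_inertiaDeg (w : HeightOneSpectrum (𝓞 F)) :
    Ideal.absNorm w.asIdeal =
      Ideal.absNorm (w.under (𝓞 K)).asIdeal ^ w.asIdeal.inertiaDeg (𝓞 K) := by
  have : w.asIdeal.LiesOver (w.under (𝓞 K)).asIdeal := ⟨rfl⟩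
  exact (Ideal.absNorm_pow_inertiaDeg (w.under (𝓞 K)).asIdeal w.asIdeal).symm

/-- (A4) a prime of `F` of prime absolute norm lies over a prime of `K` of the same absolute
norm. -/
theorem prime_absNorm_under (w : HeightOneSpectrum (𝓞 F))
    (hw : (Ideal.absNorm w.asIdeal).Prime) :
    (Ideal.absNorm (w.under (𝓞 K)).asIdeal).Prime ∧
      Ideal.absNorm w.asIdeal = Ideal.absNorm (w.under (𝓞 K)).asIdeal ∧
      w.asIdeal.inertiaDeg (𝓞 K) = 1 := by
  have h := absNorm_eq_pow_inertiaDeg K w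
  have h2 := (Nat.Prime.pow_eq_iff hw).mp h.symm
  refine ⟨h2.1 ▸ hw, h2.1.symm, h2.2⟩

end Norm

/-! ### Unramified primes -/

section Unram

variable (M L : Type*) [Field M] [NumberField M] [Field L] [NumberField L] [Algebra M L]

/-- (A1) primes of `M` unramified in `L`. -/
def unramSet : Set (HeightOneSpectrum (𝓞 M)) :=
  {q | Algebra.IsUnramifiedIn (𝓞 L) q.asIdeal}

attribute [local instance] FractionRing.liftAlgebra in
/-- (A1) all but finitely many primes of `M` are unramified in `L`. -/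
theorem finite_compl_unramSet : (unramSet M L)ᶜ.Finite := by
  have hsep : Algebra.IsSeparable (FractionRing (𝓞 M)) (FractionRing (𝓞 L)) := by
    infer_instance
  have hD : differentIdeal (𝓞 M) (𝓞 L) ≠ ⊥ := differentIdeal_ne_bot
  have hd : (differentIdeal (𝓞 M) (𝓞 L)).under (𝓞 M) ≠ ⊥ := by
    intro h
    exact hD (Ideal.eq_bot_of_comap_eq_bot h)
  refine (Ideal.finite_factors hd).subset ?_
  intro q hq
  simp only [unramSet, Set.mem_compl_iff, Set.mem_ofPred_eq, Algebra.IsUnramifiedIn] at hq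
  push Not at hq
  obtain ⟨P, hP, hPq, hPun⟩ := hq
  have h1 : P ∣ differentIdeal (𝓞 M) (𝓞 L) := dvd_differentIdeal_iff.mpr hPun
  rw [Set.mem_ofPred_eq, Ideal.dvd_iff_le]
  rw [hPq.over]
  exact Ideal.comap_mono (Ideal.dvd_iff_le.mp h1)

end Unram

/-! ### Frobenius elements in abelian extensions -/

section Frob

variable (M L : Type*) [Field M] [NumberField M] [Field L] [NumberField L] [Algebra M L]
  [IsGalois M L]

/-- (A2) in an abelian extension every prime `q` of `M` has a Frobenius element, which is an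
arithmetic Frobenius at EVERY prime of `L` over `q`. -/
theorem exists_frob (hab : ∀ σ τ : L ≃ₐ[M] L, σ * τ = τ * σ) (q : HeightOneSpectrum (𝓞 M)) :
    ∃ σ : L ≃ₐ[M] L, ∀ (P : Ideal (𝓞 L)), P.IsPrime → P.LiesOver q.asIdeal →
      IsArithFrobAt (𝓞 M) σ P := by
  obtain ⟨⟨P₀, hP₀, hP₀q⟩⟩ : Nonempty (q.asIdeal.primesOver (𝓞 L)) := inferInstance
  have hP₀ne : P₀ ≠ ⊥ := Ideal.ne_bot_of_liesOver_of_ne_bot q.ne_bot P₀
  have : Finite (𝓞 L ⧸ P₀) := Ideal.finiteQuotientOfFreeOfNeBot P₀ hP₀ne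
  obtain ⟨σ, hσ⟩ := IsArithFrobAt.exists_of_isInvariant (𝓞 M) (L ≃ₐ[M] L) P₀
  refine ⟨σ, fun P hP hPq => ?_⟩
  obtain ⟨τ, rfl⟩ := Ideal.exists_smul_eq_of_isGaloisGroup q.asIdeal P₀ P (L ≃ₐ[M] L)
  have := hσ.conj τ
  rwa [hab τ σ, mul_inv_cancel_right] at this

end Frob

/-! ### Residue degree one iff the Frobenius fixes the intermediate field -/

section Claims

variable {M L : Type*} [Field M] [NumberField M] [Field L] [NumberField L] [Algebra M L]
  [IsGalois M L]
  (E : Type*) [Field E] [NumberField E] [Algebra M E] [Algebra E L] [IsScalarTower M E L]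

omit [NumberField M] [NumberField L] [NumberField E] [Algebra M E] [IsScalarTower M E L]
  [IsGalois M L] in
theorem smul_algebraMap_of_fix {σ : L ≃ₐ[M] L}
    (hfix : ∀ x : E, σ (algebraMap E L x) = algebraMap E L x) (x : 𝓞 E) :
    σ • (algebraMap (𝓞 E) (𝓞 L) x) = algebraMap (𝓞 E) (𝓞 L) x := by
  apply RingOfIntegers.ext
  exact hfix x

/-- a finite field all of whose elements satisfy `a ^ N = a` (`2 ≤ N`) has at most `N`
elements. -/
theorem card_le_of_pow_eq {k : Type*} [Field k] [Finite k] {N : ℕ} (hN : 2 ≤ N)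
    (h : ∀ a : k, a ^ N = a) : Nat.card k ≤ N := by
  classical
  have := Fintype.ofFinite k
  have hne : (Polynomial.X ^ N - Polynomial.X : Polynomial k) ≠ 0 :=
    FiniteField.X_pow_card_sub_X_ne_zero k (by omega)
  have hdeg : (Polynomial.X ^ N - Polynomial.X : Polynomial k).natDegree = N :=
    FiniteField.X_pow_card_sub_X_natDegree_eq k (by omega)
  have := Polynomial.card_le_degree_of_subset_roots
    (p := (Polynomial.X ^ N - Polynomial.X : Polynomial k)) (Z := Finset.univ) (by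
      intro a _
      rw [Polynomial.mem_roots hne]
      simp [h a])
  rw [hdeg] at this
  rw [Nat.card_eq_fintype_card]
  simpa using this

/-- if the Frobenius `σ` at `P` fixes `E` then `P ∩ E` has residue degree one over `M`. -/
theorem inertiaDeg_eq_one_of_fix {σ : L ≃ₐ[M] L}
    (hfix : ∀ x : E, σ (algebraMap E L x) = algebraMap E L x)
    (w : HeightOneSpectrum (𝓞 E)) (P : Ideal (𝓞 L)) [P.IsPrime] [P.LiesOver w.asIdeal]
    (hσ : IsArithFrobAt (𝓞 M) σ P) :
    w.asIdeal.inertiaDeg (𝓞 M) = 1 := by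
  set q := w.under (𝓞 M) with hq
  have hPq : P.under (𝓞 M) = q.asIdeal := by
    rw [hq, HeightOneSpectrum.under_asIdeal, (inferInstance : P.LiesOver w.asIdeal).over,
      Ideal.under_under]
  have : w.asIdeal.LiesOver q.asIdeal := ⟨rfl⟩
  set N := Nat.card (𝓞 M ⧸ q.asIdeal) with hN
  have hNabs : N = Ideal.absNorm q.asIdeal := by
    rw [hN, Ideal.absNorm_apply, Submodule.cardQuot_apply]
  have hN2 : 2 ≤ N := by
    rw [hNabs]; exact HeightOneSpectrum.one_lt_absNorm q
  have key : ∀ x : 𝓞 E, x ^ N - x ∈ w.asIdeal := by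
    intro x
    have h1 := hσ (algebraMap (𝓞 E) (𝓞 L) x)
    rw [hPq] at h1
    change σ • (algebraMap (𝓞 E) (𝓞 L) x) - _ ∈ P at h1
    rw [smul_algebraMap_of_fix E hfix, ← map_pow, ← map_sub,
      ← Ideal.mem_of_liesOver P w.asIdeal] at h1
    rw [← neg_sub]
    exact neg_mem h1
  have := w.isMaximal
  let := Ideal.Quotient.field w.asIdeal
  have hfin : Finite (𝓞 E ⧸ w.asIdeal) := Ideal.finiteQuotientOfFreeOfNeBot _ w.ne_bot
  have hcard : Nat.card (𝓞 E ⧸ w.asIdeal) ≤ N := by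
    apply card_le_of_pow_eq hN2
    intro a
    obtain ⟨x, rfl⟩ := Ideal.Quotient.mk_surjective a
    rw [← map_pow, ← sub_eq_zero, ← map_sub, Ideal.Quotient.eq_zero_iff_mem]
    exact key x
  have hpow := Ideal.absNorm_pow_inertiaDeg q.asIdeal w.asIdeal
  rw [← hNabs] at hpow
  have hcard' : N ^ w.asIdeal.inertiaDeg (𝓞 M) ≤ N := by
    rw [hpow, Ideal.absNorm_apply, Submodule.cardQuot_apply]; exact hcard
  have hpos : 0 < w.asIdeal.inertiaDeg (𝓞 M) := Ideal.inertiaDeg_pos _ _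
  by_contra hne
  have h2 : 2 ≤ w.asIdeal.inertiaDeg (𝓞 M) := by omega
  have : N ^ 2 ≤ N ^ w.asIdeal.inertiaDeg (𝓞 M) := Nat.pow_le_pow_right (by omega) h2
  nlinarith

variable [IsGalois M E]

omit [NumberField M] [NumberField L] [NumberField E] [IsGalois M L] in
theorem algebraMap_restrictNormal_smul (σ : L ≃ₐ[M] L) (x : 𝓞 E) :
    algebraMap (𝓞 E) (𝓞 L) ((σ.restrictNormal E) • x) = σ • (algebraMap (𝓞 E) (𝓞 L) x) := by
  apply RingOfIntegers.ext
  exact AlgEquiv.restrictNormal_commutes σ E x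

/-- if `P` is unramified over `M` and `P ∩ E` has residue degree one over `M` then the Frobenius
at `P` fixes `E`. -/
theorem fix_of_inertiaDeg_eq_one {σ : L ≃ₐ[M] L}
    (w : HeightOneSpectrum (𝓞 E)) (P : Ideal (𝓞 L)) [P.IsPrime] [P.LiesOver w.asIdeal]
    (hun : Algebra.IsUnramifiedAt (𝓞 M) P)
    (hσ : IsArithFrobAt (𝓞 M) σ P) (hf : w.asIdeal.inertiaDeg (𝓞 M) = 1) :
    ∀ x : E, σ (algebraMap E L x) = algebraMap E L x := by
  set q := w.under (𝓞 M) with hq
  have hPq : P.under (𝓞 M) = q.asIdeal := by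
    rw [hq, HeightOneSpectrum.under_asIdeal, (inferInstance : P.LiesOver w.asIdeal).over,
      Ideal.under_under]
  have hwq : w.asIdeal.LiesOver q.asIdeal := ⟨rfl⟩
  set N := Nat.card (𝓞 M ⧸ q.asIdeal) with hN
  have hNabs : N = Ideal.absNorm q.asIdeal := by
    rw [hN, Ideal.absNorm_apply, Submodule.cardQuot_apply]
  have hpow := Ideal.absNorm_pow_inertiaDeg q.asIdeal w.asIdeal
  rw [hf, pow_one, ← hNabs] at hpow
  have := w.isMaximal
  let := Ideal.Quotient.field w.asIdeal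
  have hfin : Finite (𝓞 E ⧸ w.asIdeal) := Ideal.finiteQuotientOfFreeOfNeBot _ w.ne_bot
  have hcard : Nat.card (𝓞 E ⧸ w.asIdeal) = N := by
    rw [hpow, Ideal.absNorm_apply, Submodule.cardQuot_apply]
  -- `x ^ N - x ∈ w`
  have key1 : ∀ x : 𝓞 E, x ^ N - x ∈ w.asIdeal := by
    intro x
    have := Fintype.ofFinite (𝓞 E ⧸ w.asIdeal)
    rw [← Ideal.Quotient.eq_zero_iff_mem, map_sub, map_pow, sub_eq_zero, ← hcard,
      Nat.card_eq_fintype_card]
    exact FiniteField.pow_card _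
  -- `σ̄ x - x ^ N ∈ w`
  have key2 : ∀ x : 𝓞 E, (σ.restrictNormal E) • x - x ^ N ∈ w.asIdeal := by
    intro x
    have h1 := hσ (algebraMap (𝓞 E) (𝓞 L) x)
    rw [hPq] at h1
    change σ • (algebraMap (𝓞 E) (𝓞 L) x) - _ ∈ P at h1
    rw [← algebraMap_restrictNormal_smul, ← map_pow, ← map_sub,
      ← Ideal.mem_of_liesOver P w.asIdeal] at h1
    exact h1
  have hmem : σ.restrictNormal E ∈ w.asIdeal.inertia (E ≃ₐ[M] E) := by
    intro x
    have := add_mem (key2 x) (key1 x)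
    simpa using this
  -- inertia is trivial
  have hunw : Algebra.IsUnramifiedAt (𝓞 M) w.asIdeal :=
    Algebra.IsUnramifiedAt.of_liesOver (𝓞 M) w.asIdeal P
  have he : w.asIdeal.ramificationIdx (𝓞 M) = 1 := Ideal.ramificationIdx_eq_one_of_isUnramifiedAt
  have hcardI : Nat.card (w.asIdeal.inertia (E ≃ₐ[M] E)) = 1 := by
    rw [Ideal.card_inertia_eq_ramificationIdxIn q.asIdeal w.asIdeal,
      Ideal.ramificationIdxIn_eq_ramificationIdx q.asIdeal w.asIdeal (E ≃ₐ[M] E), he]
  have hone : σ.restrictNormal E = 1 := by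
    have hsub : Subsingleton (w.asIdeal.inertia (E ≃ₐ[M] E)) :=
      (Nat.card_eq_one_iff_unique.mp hcardI).1
    have := Subsingleton.elim (⟨σ.restrictNormal E, hmem⟩ : w.asIdeal.inertia (E ≃ₐ[M] E)) 1
    exact congrArg Subtype.val this
  intro x
  rw [← AlgEquiv.restrictNormal_commutes σ E x, hone]
  rfl

end Claims

/-! ### Counting the primes over `q` -/

section Count

variable {M : Type*} [Field M] [NumberField M]
  (E : Type*) [Field E] [NumberField E] [Algebra M E]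

/-- the fibre of `under` over `q` is the set of primes over `q`. -/
noncomputable def fiberEquiv (q : HeightOneSpectrum (𝓞 M)) :
    {w : HeightOneSpectrum (𝓞 E) // w.under (𝓞 M) = q} ≃ q.asIdeal.primesOver (𝓞 E) where
  toFun w := ⟨w.1.asIdeal, w.1.isPrime, ⟨congrArg HeightOneSpectrum.asIdeal w.2.symm⟩⟩
  invFun Q := ⟨⟨Q.1, Q.2.1,
      haveI := Q.2.2; Ideal.ne_bot_of_liesOver_of_ne_bot q.ne_bot Q.1⟩,
    HeightOneSpectrum.ext (by
      have := Q.2.2
      exact (Ideal.over_def Q.1 q.asIdeal).symm)⟩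
  left_inv w := rfl
  right_inv Q := rfl

variable {L : Type*} [Field L] [NumberField L] [Algebra M L] [IsGalois M L]
  [Algebra E L] [IsScalarTower M E L]

omit [NumberField M] [Algebra M E] [Algebra M L] [IsGalois M L] [IsScalarTower M E L]
  [NumberField E] [NumberField L] in
theorem exists_prime_over (w : HeightOneSpectrum (𝓞 E)) :
    ∃ P : Ideal (𝓞 L), P.IsPrime ∧ P.LiesOver w.asIdeal := by
  obtain ⟨⟨P, hP, hPw⟩⟩ : Nonempty (w.asIdeal.primesOver (𝓞 L)) := inferInstance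
  exact ⟨P, hP, hPw⟩

theorem inertiaDeg_eq_one_of_fix' (q : HeightOneSpectrum (𝓞 M)) {σ : L ≃ₐ[M] L}
    (hσ : ∀ P : Ideal (𝓞 L), P.IsPrime → P.LiesOver q.asIdeal → IsArithFrobAt (𝓞 M) σ P)
    (hfix : ∀ x : E, σ (algebraMap E L x) = algebraMap E L x)
    (w : HeightOneSpectrum (𝓞 E)) (hw : w.under (𝓞 M) = q) :
    w.asIdeal.inertiaDeg (𝓞 M) = 1 := by
  obtain ⟨P, hP, hPw⟩ := exists_prime_over E (L := L) w
  have hwq : w.asIdeal.LiesOver q.asIdeal := ⟨by rw [← hw]; rfl⟩
  have hPq : P.LiesOver q.asIdeal := Ideal.LiesOver.trans P w.asIdeal q.asIdeal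
  exact inertiaDeg_eq_one_of_fix E hfix w P (hσ P hP hPq)

/-- (A3) if the Frobenius of `q` fixes `E`, every prime of `E` over `q` has the same absolute
norm as `q`. -/
theorem absNorm_eq_of_fix (q : HeightOneSpectrum (𝓞 M)) {σ : L ≃ₐ[M] L}
    (hσ : ∀ P : Ideal (𝓞 L), P.IsPrime → P.LiesOver q.asIdeal → IsArithFrobAt (𝓞 M) σ P)
    (hfix : ∀ x : E, σ (algebraMap E L x) = algebraMap E L x)
    (w : HeightOneSpectrum (𝓞 E)) (hw : w.under (𝓞 M) = q) :
    Ideal.absNorm w.asIdeal = Ideal.absNorm q.asIdeal := by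
  have hwq : w.asIdeal.LiesOver q.asIdeal := ⟨by rw [← hw]; rfl⟩
  have := Ideal.absNorm_pow_inertiaDeg q.asIdeal w.asIdeal
  rw [inertiaDeg_eq_one_of_fix' E q hσ hfix w hw, pow_one] at this
  exact this.symm

variable [IsGalois M E]

/-- (A3) if `q` is unramified in `L` and its Frobenius fixes `E` (Galois over `M`), there are
exactly `[E:M]` primes of `E` over `q`. -/
theorem card_fiber_of_fix (q : HeightOneSpectrum (𝓞 M)) (hq : q ∈ unramSet M L)
    {σ : L ≃ₐ[M] L}
    (hσ : ∀ P : Ideal (𝓞 L), P.IsPrime → P.LiesOver q.asIdeal → IsArithFrobAt (𝓞 M) σ P)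
    (hfix : ∀ x : E, σ (algebraMap E L x) = algebraMap E L x) :
    Nat.card {w : HeightOneSpectrum (𝓞 E) // w.under (𝓞 M) = q} = Module.finrank M E := by
  rw [Nat.card_congr (fiberEquiv E q), Nat.card_coe_set_eq]
  have hfund := Ideal.ncard_primesOver_mul_ramificationIdxIn_mul_inertiaDegIn q.asIdeal (𝓞 E)
    (E ≃ₐ[M] E)
  obtain ⟨⟨Q, hQ, hQq⟩⟩ : Nonempty (q.asIdeal.primesOver (𝓞 E)) := inferInstance
  let w : HeightOneSpectrum (𝓞 E) := ⟨Q, hQ, Ideal.ne_bot_of_liesOver_of_ne_bot q.ne_bot Q⟩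
  have hw : w.under (𝓞 M) = q := HeightOneSpectrum.ext (Ideal.over_def Q q.asIdeal).symm
  have hf : Q.inertiaDeg (𝓞 M) = 1 := inertiaDeg_eq_one_of_fix' E q hσ hfix w hw
  obtain ⟨P, hP, hPw⟩ := exists_prime_over E (L := L) w
  have hPQ : P.LiesOver Q := hPw
  have hPq : P.LiesOver q.asIdeal := Ideal.LiesOver.trans P Q q.asIdeal
  have hunP : Algebra.IsUnramifiedAt (𝓞 M) P := hq P hP hPq
  have hunw : Algebra.IsUnramifiedAt (𝓞 M) Q := Algebra.IsUnramifiedAt.of_liesOver (𝓞 M) Q P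
  have he : Q.ramificationIdx (𝓞 M) = 1 := Ideal.ramificationIdx_eq_one_of_isUnramifiedAt
  rw [Ideal.ramificationIdxIn_eq_ramificationIdx q.asIdeal Q (E ≃ₐ[M] E),
    Ideal.inertiaDegIn_eq_inertiaDeg q.asIdeal Q (E ≃ₐ[M] E), he, hf, mul_one, mul_one,
    IsGalois.card_aut_eq_finrank] at hfund
  exact hfund

/-- (A3) if `q` is unramified in `L` and its Frobenius does not fix `E`, no prime of `E` over `q`
has prime absolute norm. -/
theorem not_prime_absNorm_of_not_fix (q : HeightOneSpectrum (𝓞 M)) (hq : q ∈ unramSet M L)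
    {σ : L ≃ₐ[M] L}
    (hσ : ∀ P : Ideal (𝓞 L), P.IsPrime → P.LiesOver q.asIdeal → IsArithFrobAt (𝓞 M) σ P)
    (hnfix : ¬ ∀ x : E, σ (algebraMap E L x) = algebraMap E L x)
    (w : HeightOneSpectrum (𝓞 E)) (hw : w.under (𝓞 M) = q) :
    ¬ (Ideal.absNorm w.asIdeal).Prime := by
  intro hprime
  apply hnfix
  obtain ⟨P, hP, hPw⟩ := exists_prime_over E (L := L) w
  have hwq : w.asIdeal.LiesOver q.asIdeal := ⟨by rw [← hw]; rfl⟩
  have hPq : P.LiesOver q.asIdeal := Ideal.LiesOver.trans P w.asIdeal q.asIdeal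
  have hpow := Ideal.absNorm_pow_inertiaDeg q.asIdeal w.asIdeal
  rw [← hpow] at hprime
  have hf : w.asIdeal.inertiaDeg (𝓞 M) = 1 := ((Nat.Prime.pow_eq_iff hprime).mp rfl).2
  exact fix_of_inertiaDeg_eq_one E w P (hq P hP hPq) (hσ P hP hPq) hf

end Count

/-! ### Intermediate fields of an abelian extension; the base field `ℚ` -/

section Intermediate

variable {M L : Type*} [Field M] [NumberField M] [Field L] [NumberField L] [Algebra M L]
  [IsGalois M L]

/-- in an abelian extension every intermediate field is Galois over the base. -/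
theorem isGalois_of_comm (hab : ∀ σ τ : L ≃ₐ[M] L, σ * τ = τ * σ) (E : IntermediateField M L) :
    IsGalois M E := by
  have hn : (E.fixingSubgroup).Normal := ⟨fun n hn g => by
    rw [hab g n, mul_inv_cancel_right]; exact hn⟩
  have h := IsGalois.of_fixedField_normal_subgroup (K := M) (L := L) E.fixingSubgroup
  rwa [IsGalois.fixedField_fixingSubgroup] at h

omit [NumberField M] [NumberField L] [IsGalois M L] in
theorem fix_iff_mem_fixingSubgroup (E : IntermediateField M L) (σ : L ≃ₐ[M] L) :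
    (∀ x : E, σ (algebraMap E L x) = algebraMap E L x) ↔ σ ∈ E.fixingSubgroup := by
  rw [IntermediateField.mem_fixingSubgroup_iff]
  exact ⟨fun h x hx => h ⟨x, hx⟩, fun h x => h x x.2⟩

/-- (A3), intermediate-field form. -/
theorem card_fiber_of_mem_fixingSubgroup (hab : ∀ σ τ : L ≃ₐ[M] L, σ * τ = τ * σ)
    (E : IntermediateField M L) (q : HeightOneSpectrum (𝓞 M)) (hq : q ∈ unramSet M L)
    {σ : L ≃ₐ[M] L}
    (hσ : ∀ P : Ideal (𝓞 L), P.IsPrime → P.LiesOver q.asIdeal → IsArithFrobAt (𝓞 M) σ P)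
    (hfix : σ ∈ E.fixingSubgroup) :
    Nat.card {w : HeightOneSpectrum (𝓞 E) // w.under (𝓞 M) = q} = Module.finrank M E := by
  have := isGalois_of_comm hab E
  exact card_fiber_of_fix E q hq hσ ((fix_iff_mem_fixingSubgroup E σ).mpr hfix)

/-- (A3), intermediate-field form. -/
theorem absNorm_eq_of_mem_fixingSubgroup
    (E : IntermediateField M L) (q : HeightOneSpectrum (𝓞 M))
    {σ : L ≃ₐ[M] L}
    (hσ : ∀ P : Ideal (𝓞 L), P.IsPrime → P.LiesOver q.asIdeal → IsArithFrobAt (𝓞 M) σ P)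
    (hfix : σ ∈ E.fixingSubgroup) (w : HeightOneSpectrum (𝓞 E)) (hw : w.under (𝓞 M) = q) :
    Ideal.absNorm w.asIdeal = Ideal.absNorm q.asIdeal :=
  absNorm_eq_of_fix E q hσ ((fix_iff_mem_fixingSubgroup E σ).mpr hfix) w hw

/-- (A3), intermediate-field form. -/
theorem not_prime_absNorm_of_not_mem_fixingSubgroup (hab : ∀ σ τ : L ≃ₐ[M] L, σ * τ = τ * σ)
    (E : IntermediateField M L) (q : HeightOneSpectrum (𝓞 M)) (hq : q ∈ unramSet M L)
    {σ : L ≃ₐ[M] L}
    (hσ : ∀ P : Ideal (𝓞 L), P.IsPrime → P.LiesOver q.asIdeal → IsArithFrobAt (𝓞 M) σ P)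
    (hnfix : σ ∉ E.fixingSubgroup) (w : HeightOneSpectrum (𝓞 E)) (hw : w.under (𝓞 M) = q) :
    ¬ (Ideal.absNorm w.asIdeal).Prime := by
  have := isGalois_of_comm hab E
  exact not_prime_absNorm_of_not_fix E q hq hσ
    (fun h => hnfix ((fix_iff_mem_fixingSubgroup E σ).mp h)) w hw

end Intermediate

section OverQ

variable (L : Type*) [Field L] [NumberField L] [IsGalois ℚ L]

/-- (A5) for `L/ℚ` Galois and `p ∤ disc L`, every prime of `L` over `p` has trivial inertia. -/
theorem inertia_eq_bot_of_not_dvd_discr {p : ℕ} (hp : p.Prime)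
    (hpd : ¬ (p : ℤ) ∣ NumberField.discr L) (P : Ideal (𝓞 L)) [hP : P.IsPrime]
    (hpP : (p : 𝓞 L) ∈ P) : P.inertia (L ≃ₐ[ℚ] L) = ⊥ := by
  have hp' : Prime (p : ℤ) := Nat.prime_iff_prime_int.mp hp
  have hun : Algebra.IsUnramifiedAt ℤ P :=
    (NumberField.not_dvd_discr_iff_forall_mem L (𝓞 L) hp').mp hpd P hP (by exact_mod_cast hpP)
  have hlo : P.LiesOver (Ideal.span {(p : ℤ)}) :=
    (Ideal.liesOver_span_iff hP.ne_top hp').mpr (by exact_mod_cast hpP)
  have hprime : (Ideal.span {(p : ℤ)}).IsPrime :=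
    (Ideal.span_singleton_prime hp'.ne_zero).mpr hp'
  have he : P.ramificationIdx ℤ = 1 := Ideal.ramificationIdx_eq_one_of_isUnramifiedAt
  have hcardI : Nat.card (P.inertia (L ≃ₐ[ℚ] L)) = 1 := by
    rw [Ideal.card_inertia_eq_ramificationIdxIn (Ideal.span {(p : ℤ)}) P,
      Ideal.ramificationIdxIn_eq_ramificationIdx (Ideal.span {(p : ℤ)}) P (L ≃ₐ[ℚ] L), he]
  exact (Subgroup.card_eq_one).mp hcardI

/-- (A5) all but finitely many rational primes have trivial inertia in `L`. -/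
theorem finite_setOf_inertia_ne_bot :
    {p : ℕ | p.Prime ∧ ∃ P : Ideal (𝓞 L), P.IsPrime ∧ (p : 𝓞 L) ∈ P ∧
      P.inertia (L ≃ₐ[ℚ] L) ≠ ⊥}.Finite := by
  have hd : (NumberField.discr L).natAbs ≠ 0 := Int.natAbs_ne_zero.mpr (NumberField.discr_ne_zero L)
  refine (Finset.finite_toSet (Nat.divisors (NumberField.discr L).natAbs)).subset ?_
  rintro p ⟨hp, P, hP, hpP, hne⟩
  rw [Finset.mem_coe]
  refine Nat.mem_divisors.mpr ⟨?_, hd⟩
  by_contra hnd
  exact hne (inertia_eq_bot_of_not_dvd_discr L hp (fun h => hnd (Int.natCast_dvd.mp h)) P hpP)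

end OverQ

end Fermat.Agent.Lib.Frob.AbSplit
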