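import Mathlib

/-!
# Sums over the fibres of a map with fibres of constant finite size

If `u : α → β` maps `T' ⊆ α` into `T ⊆ β` and every fibre of `u|T'` over a point of `T` has
exactly `d > 0` elements, then `∑' x : T', f (u x) = d * ∑' y : T, f y` for nonnegative `f`.
-/

set_option autoImplicit false

namespace Fermat.Agent.Lib.Frob

/-- The fibrewise decomposition of a subset `T'` along a map `u` into `T`. -/
def fibreSigmaEquiv {α β : Type*} (u : α → β) (T' : Set α) (T : Set β) (hu : ∀ x ∈ T', u x ∈ T) :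
    T' ≃ Σ y : T, {x : α // x ∈ T' ∧ u x = y.1} where
  toFun x := ⟨⟨u x.1, hu x.1 x.2⟩, ⟨x.1, x.2, rfl⟩⟩
  invFun p := ⟨p.2.1, p.2.2.1⟩
  left_inv x := rfl
  right_inv p := by
    obtain ⟨⟨y, hy⟩, ⟨x, hx, hxy⟩⟩ := p
    simp only at hxy
    subst hxy
    rfl

/-- Sum over fibres of constant size `d`. -/
theorem summable_and_tsum_fibre {α β : Type*} (u : α → β) (T' : Set α) (T : Set β) (f : β → ℝ)
    (hf : ∀ y, 0 ≤ f y) (hsum : Summable fun y : T => f y) {d : ℕ} (hd : 0 < d)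
    (hu : ∀ x ∈ T', u x ∈ T)
    (hfib : ∀ y ∈ T, Nat.card {x : α // x ∈ T' ∧ u x = y} = d) :
    Summable (fun x : T' => f (u x)) ∧ ∑' x : T', f (u x) = d * ∑' y : T, f y := by
  classical
  have hfin : ∀ y : T, Finite {x : α // x ∈ T' ∧ u x = y.1} := fun y =>
    Nat.finite_of_card_ne_zero (by rw [hfib y.1 y.2]; exact hd.ne')
  have hfibsum : ∀ y : T, ∑' _ : {x : α // x ∈ T' ∧ u x = y.1}, f y.1 = (d : ℝ) * f y.1 := by
    intro y
    have := hfin y
    have := Fintype.ofFinite {x : α // x ∈ T' ∧ u x = y.1}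
    rw [tsum_fintype, Finset.sum_const, Finset.card_univ, ← Nat.card_eq_fintype_card,
      hfib y.1 y.2, nsmul_eq_mul]
  have hS1 : ∀ y : T, Summable fun _ : {x : α // x ∈ T' ∧ u x = y.1} => f y.1 := by
    intro y
    have := hfin y
    exact Summable.of_finite
  have hS : Summable (fun p : (Σ y : T, {x : α // x ∈ T' ∧ u x = y.1}) => f p.1.1) := by
    rw [summable_sigma_of_nonneg (fun _ => hf _)]
    refine ⟨hS1, ?_⟩
    have : (fun y : T => ∑' _ : {x : α // x ∈ T' ∧ u x = y.1}, f y.1) =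
        fun y : T => (d : ℝ) * f y.1 := funext hfibsum
    rw [this]
    exact hsum.mul_left _
  have hcomp : (fun x : T' => f (u x)) =
      (fun p : (Σ y : T, {x : α // x ∈ T' ∧ u x = y.1}) => f p.1.1) ∘ (fibreSigmaEquiv u T' T hu) := by
    funext x
    rfl
  refine ⟨?_, ?_⟩
  · rw [hcomp]
    exact (Equiv.summable_iff (fibreSigmaEquiv u T' T hu)).mpr hS
  · rw [hcomp]
    have h1 := Equiv.tsum_eq (fibreSigmaEquiv u T' T hu)
      (fun p : (Σ y : T, {x : α // x ∈ T' ∧ u x = y.1}) => f p.1.1)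
    rw [show tsum ((fun p : (Σ y : T, {x : α // x ∈ T' ∧ u x = y.1}) => f p.1.1) ∘
      (fibreSigmaEquiv u T' T hu)) = ∑' c : T', f ((fibreSigmaEquiv u T' T hu) c).1.1 from rfl, h1]
    rw [hS.tsum_sigma' hS1]
    simp only [hfibsum]
    rw [tsum_mul_left]

/-- Sum over fibres, general form: if the sum of `h` over each (finite) fibre over `y ∈ T` is
`c * f y`, then `∑' x : T', h x = c * ∑' y : T, f y`. -/
theorem summable_and_tsum_fibre_of_sum {α β : Type*} (u : α → β) (T' : Set α) (T : Set β)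
    (h : α → ℝ) (f : β → ℝ) (hh : ∀ x, 0 ≤ h x) (hsum : Summable fun y : T => f y) (c : ℝ)
    (hu : ∀ x ∈ T', u x ∈ T)
    (hfib : ∀ y ∈ T, Finite {x : α // x ∈ T' ∧ u x = y} ∧
      ∑' x : {x : α // x ∈ T' ∧ u x = y}, h x.1 = c * f y) :
    Summable (fun x : T' => h x) ∧ ∑' x : T', h x = c * ∑' y : T, f y := by
  classical
  have hfibsum : ∀ y : T, ∑' x : {x : α // x ∈ T' ∧ u x = y.1}, h x.1 = c * f y.1 :=
    fun y => (hfib y.1 y.2).2
  have hS1 : ∀ y : T, Summable fun x : {x : α // x ∈ T' ∧ u x = y.1} => h x.1 := by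
    intro y
    have := (hfib y.1 y.2).1
    exact Summable.of_finite
  have hS : Summable (fun p : (Σ y : T, {x : α // x ∈ T' ∧ u x = y.1}) => h p.2.1) := by
    rw [summable_sigma_of_nonneg (fun _ => hh _)]
    refine ⟨hS1, ?_⟩
    have : (fun y : T => ∑' x : {x : α // x ∈ T' ∧ u x = y.1}, h x.1) =
        fun y : T => c * f y.1 := funext hfibsum
    rw [this]
    exact hsum.mul_left _
  have hcomp : (fun x : T' => h x) =
      (fun p : (Σ y : T, {x : α // x ∈ T' ∧ u x = y.1}) => h p.2.1) ∘ (fibreSigmaEquiv u T' T hu) := by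
    funext x
    rfl
  refine ⟨?_, ?_⟩
  · rw [hcomp]
    exact (Equiv.summable_iff (fibreSigmaEquiv u T' T hu)).mpr hS
  · rw [hcomp]
    have h1 := Equiv.tsum_eq (fibreSigmaEquiv u T' T hu)
      (fun p : (Σ y : T, {x : α // x ∈ T' ∧ u x = y.1}) => h p.2.1)
    rw [show tsum ((fun p : (Σ y : T, {x : α // x ∈ T' ∧ u x = y.1}) => h p.2.1) ∘
      (fibreSigmaEquiv u T' T hu)) = ∑' c : T', h ((fibreSigmaEquiv u T' T hu) c).2.1 from rfl, h1]
    rw [hS.tsum_sigma' hS1]
    simp only [hfibsum]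
    rw [tsum_mul_left]

/-- A subtype sum over a finite set of a function bounded by `B ≥ 0` is bounded by `card * B`. -/
theorem tsum_subtype_le_of_finite {α : Type*} (T : Set α) (hT : T.Finite) (f : α → ℝ) {B : ℝ}
    (hB : ∀ x ∈ T, f x ≤ B) : ∑' x : T, f x ≤ T.ncard * B := by
  classical
  have := hT.fintype
  rw [tsum_fintype]
  calc ∑ x : T, f x ≤ ∑ _x : T, B := Finset.sum_le_sum fun x _ => hB x.1 x.2
    _ = T.ncard * B := by
      rw [Finset.sum_const, Finset.card_univ, nsmul_eq_mul, Set.ncard_eq_toFinset_card',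
        Set.toFinset_card]

end Fermat.Agent.Lib.Frob
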