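import Mathlib
import Fermat.Prelude.Def_EllipticCurve_FrobeniusTrace
import Fermat.Prelude.Def_FLTPrelim_Ramification
import Fermat.Agent.Lib.GalQbar
import Fermat.Agent.Lib.Frob.Bridge

/-!
# Frobenius density theorem (existence form): wiring to the absolute Galois group

`PrimeArithFrobGenerates` is the number-field statement (output of the analytic/algebraic part):
for a finite Galois extension `L/ℚ`, `g ∈ Gal(L/ℚ)` and a finite set `S` of primes there are a
prime `p ∉ S`, an unramified prime `P ∣ p` of `L` and an arithmetic Frobenius `τ` at `P`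
generating the same cyclic subgroup as `g`.

`exists_frobenius_pow_eq_on_of` turns it into the statement used by consumers: for every
finite-dimensional subfield `K` of `AlgebraicClosure ℚ`, every finite set `S` of primes and every
`g` in the absolute Galois group there are a prime `ℓ ∉ S`, a valuation subring `A` over `ℓ`
and a Frobenius element `σ` at `A` (prelude notions) such that `g` and some power `σ ^ k` agree
on `K`.
-/

set_option autoImplicit false

namespace Fermat.Agent.Lib.Frob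

open NumberField

local notation "Qbar" => AlgebraicClosure ℚ

/-- The number-field form of the Frobenius density theorem (existence form). -/
def PrimeArithFrobGenerates : Prop :=
  ∀ (L : Type) [Field L] [NumberField L] [IsGalois ℚ L] (g : Gal(L/ℚ)) (S : Set ℕ),
    S.Finite →
    ∃ (p : ℕ) (P : Ideal (𝓞 L)) (τ : Gal(L/ℚ)), p.Prime ∧ p ∉ S ∧ P.IsPrime ∧ (p : 𝓞 L) ∈ P ∧
      P.inertia Gal(L/ℚ) = ⊥ ∧ IsArithFrobAt ℤ τ P ∧ Subgroup.zpowers τ = Subgroup.zpowers g

/-- Frobenius density theorem, existence form, for the absolute Galois group of `ℚ`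
(conditional on the number-field form): `g` and the Frobenius element `σ` generate the same
cyclic group of automorphisms of `K`. -/
theorem exists_frobenius_generating_of (hF : PrimeArithFrobGenerates)
    (K : IntermediateField ℚ Qbar) [FiniteDimensional ℚ K] (S : Set ℕ) (hS : S.Finite)
    (g : Qbar ≃ₐ[ℚ] Qbar) :
    ∃ ℓ : ℕ, ℓ.Prime ∧ ℓ ∉ S ∧ ∃ (A : ValuationSubring Qbar) (σ : Qbar ≃ₐ[ℚ] Qbar) (k j : ℕ),
      A.LiesOverPrime ℓ ∧ A.IsFrobeniusAt σ ℓ ∧ (∀ x ∈ K, g x = (σ ^ k) x) ∧
        (∀ x ∈ K, σ x = (g ^ j) x) := by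
  -- pass to the normal closure
  have : Normal ℚ Qbar := GalQbar.normal_rat
  let L : IntermediateField ℚ Qbar := IntermediateField.normalClosure ℚ K Qbar
  have hKL : K ≤ L := IntermediateField.le_normalClosure K
  have : FiniteDimensional ℚ L := normalClosure.is_finiteDimensional ℚ K Qbar
  have : Normal ℚ L := normalClosure.normal ℚ K Qbar
  have : IsGalois ℚ L := ⟨⟩
  have : NumberField L := ⟨⟩
  obtain ⟨p, P, τ, hp, hpS, hPprime, hpP, hunr, hτ, hgen⟩ :=
    hF L (AlgEquiv.restrictNormalHom L g) S hS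
  obtain ⟨A, σ, hA, hσ, hστ⟩ := exists_isFrobeniusAt_restrict_eq L hp P hpP hunr τ hτ
  have hmem : AlgEquiv.restrictNormalHom L g ∈ Subgroup.zpowers τ := by
    rw [hgen]
    exact Subgroup.mem_zpowers _
  have hmem' : τ ∈ Subgroup.zpowers (AlgEquiv.restrictNormalHom L g) := by
    rw [← hgen]
    exact Subgroup.mem_zpowers _
  rw [← mem_powers_iff_mem_zpowers] at hmem hmem'
  obtain ⟨k, hk⟩ := hmem
  obtain ⟨j, hj⟩ := hmem'
  -- two elements of the absolute Galois group with the same restriction agree on `K`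
  have key : ∀ a b : Qbar ≃ₐ[ℚ] Qbar,
      AlgEquiv.restrictNormalHom L a = AlgEquiv.restrictNormalHom L b → ∀ x ∈ K, a x = b x := by
    intro a b hab x hx
    have h2 := AlgEquiv.restrictNormal_commutes a L ⟨x, hKL hx⟩
    have h3 := AlgEquiv.restrictNormal_commutes b L ⟨x, hKL hx⟩
    have h4 : (AlgEquiv.restrictNormalHom L a) ⟨x, hKL hx⟩ =
        (AlgEquiv.restrictNormalHom L b) ⟨x, hKL hx⟩ := by rw [hab]
    calc a x = ((AlgEquiv.restrictNormalHom L a) ⟨x, hKL hx⟩ : L) := h2.symm
      _ = ((AlgEquiv.restrictNormalHom L b) ⟨x, hKL hx⟩ : L) := by rw [h4]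
      _ = b x := h3
  refine ⟨p, hp, hpS, A, σ, k, j, hA, hσ, key _ _ ?_, key _ _ ?_⟩
  · rw [map_pow, hστ]
    exact hk.symm
  · rw [map_pow, hστ]
    exact hj.symm

/-- Frobenius density theorem, existence form, for the absolute Galois group of `ℚ`
(conditional on the number-field form). -/
theorem exists_frobenius_pow_eq_on_of (hF : PrimeArithFrobGenerates)
    (K : IntermediateField ℚ Qbar) [FiniteDimensional ℚ K] (S : Set ℕ) (hS : S.Finite)
    (g : Qbar ≃ₐ[ℚ] Qbar) :
    ∃ (ℓ : ℕ) (A : ValuationSubring Qbar) (σ : Qbar ≃ₐ[ℚ] Qbar) (k : ℕ),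
      ℓ.Prime ∧ ℓ ∉ S ∧ A.LiesOverPrime ℓ ∧ A.IsFrobeniusAt σ ℓ ∧ ∀ x ∈ K, g x = (σ ^ k) x := by
  obtain ⟨ℓ, hℓ, hℓS, A, σ, k, -, hA, hσ, hk, -⟩ := exists_frobenius_generating_of hF K S hS g
  exact ⟨ℓ, A, σ, k, hℓ, hℓS, hA, hσ, hk⟩

end Fermat.Agent.Lib.Frob
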