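import Fermat.Agent.Lib.Frob.Generates
import Fermat.Agent.Lib.Frob.Wiring

/-!
# The number-field form of the Frobenius density theorem, unconditionally

`primeArithFrobGenerates` discharges the hypothesis `PrimeArithFrobGenerates` of
`Lib/Frob/Wiring.lean` (cyclic-core route, `Lib/Frob/Generates.lean`).
-/

set_option autoImplicit false

namespace Fermat.Agent.Lib.Frob

/-- The number-field form of the Frobenius density theorem (existence form) holds. -/
theorem primeArithFrobGenerates : PrimeArithFrobGenerates :=
  fun L _ _ _ g S hS => exists_prime_arithFrob_generates L g S hS

end Fermat.Agent.Lib.Frob
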