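import Fermat.Agent.Lib.Frob.Moebius
import Fermat.Agent.Lib.Frob.FibreSum

/-!
# The analytic core of the Frobenius density theorem (existence form)

Abstract statement: let `P` be a set of "primes" with weights `w s q ∈ [0, 1]` (`s > 1`), summable
for every `s > 1`.  Let `T d ⊆ P` (`d ∣ n`) be sets with
`d * ∑_{q ∈ T d} w s q = log (1 / (s - 1)) + O(1)` as `s → 1⁺`, and let `Gen ⊆ P` satisfy the
Möbius identity `∑_{d ∣ n} μ(d) 1_{T d} = 1_{Gen}`.  Then `Gen` is infinite.
-/

set_option autoImplicit false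

namespace Fermat.Agent.Lib.Frob

open Finset

local notation "μ'" => ArithmeticFunction.moebius

theorem infinite_of_moebius_zeta {P : Type*} (n : ℕ) (hn : 0 < n) (w : ℝ → P → ℝ)
    (hw1 : ∀ s, 1 < s → ∀ q, w s q ≤ 1)
    (hsum : ∀ s, 1 < s → Summable (w s))
    (T : ℕ → Set P) (Gen : Set P)
    (hmoeb : ∀ q : P, ∑ d ∈ n.divisors, ((μ' d : ℤ) : ℝ) * Set.indicator (T d) 1 q =
      Set.indicator Gen 1 q)
    (hZ : ∀ d ∈ n.divisors, ∃ C δ : ℝ, 0 < δ ∧ ∀ s : ℝ, 1 < s → s < 1 + δ →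
        |(d : ℝ) * ∑' q : T d, w s q - Real.log (1 / (s - 1))| ≤ C) :
    Gen.Infinite := by
  classical
  intro hfin
  choose! C δ hδ hC using hZ
  -- the positive constant
  set c : ℝ := ∑ d ∈ n.divisors, ((μ' d : ℤ) : ℝ) / (d : ℝ) with hc_def
  have hc : 0 < c := sum_divisors_moebius_div_pos hn
  set K : ℝ := ∑ d ∈ n.divisors, |((μ' d : ℤ) : ℝ) / (d : ℝ)| * C d with hK_def
  have hne : n.divisors.Nonempty := ⟨1, Nat.mem_divisors.mpr ⟨one_dvd _, hn.ne'⟩⟩
  set δ₀ : ℝ := n.divisors.inf' hne δ with hδ₀_def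
  have hδ₀ : 0 < δ₀ := by
    rw [hδ₀_def, Finset.lt_inf'_iff]
    exact fun d hd => hδ d hd
  have hδ₀le : ∀ d ∈ n.divisors, δ₀ ≤ δ d := fun d hd => Finset.inf'_le _ hd
  -- Step 1: the Möbius combination equals the sum over `Gen`.
  have step1 : ∀ s : ℝ, 1 < s →
      ∑ d ∈ n.divisors, ((μ' d : ℤ) : ℝ) * ∑' q : T d, w s q = ∑' q : Gen, w s q := by
    intro s hs
    have hS := hsum s hs
    have h1 : ∀ d, ∑' q : T d, w s q = ∑' q, Set.indicator (T d) (w s) q :=
      fun d => (tsum_subtype (T d) (w s))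
    have h2 : ∑' q : Gen, w s q = ∑' q, Set.indicator Gen (w s) q := tsum_subtype Gen (w s)
    simp only [h1]
    rw [h2]
    have h3 : ∀ d ∈ n.divisors,
        Summable fun q => ((μ' d : ℤ) : ℝ) * Set.indicator (T d) (w s) q :=
      fun d _ => (hS.indicator (T d)).mul_left _
    simp only [← tsum_mul_left]
    rw [← Summable.tsum_finsetSum h3]
    refine tsum_congr fun q => ?_
    have h4 := hmoeb q
    have h5 : ∀ (A : Set P), Set.indicator A (w s) q = Set.indicator A 1 q * w s q := by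
      intro A
      by_cases hq : q ∈ A
      · simp [Set.indicator_of_mem hq]
      · simp [Set.indicator_of_notMem hq]
    rw [h5 Gen, ← h4, Finset.sum_mul]
    refine Finset.sum_congr rfl fun d _ => ?_
    rw [h5 (T d), mul_assoc]
  -- Step 2: upper bound for the sum over the finite set `Gen`.
  have step2 : ∀ s : ℝ, 1 < s → ∑' q : Gen, w s q ≤ Gen.ncard := by
    intro s hs
    have := tsum_subtype_le_of_finite Gen hfin (w s) (B := 1) (fun q _ => hw1 s hs q)
    simpa using this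
  -- Step 3: lower bound for the Möbius combination.
  have step3 : ∀ s : ℝ, 1 < s → s < 1 + δ₀ →
      c * Real.log (1 / (s - 1)) - K ≤
        ∑ d ∈ n.divisors, ((μ' d : ℤ) : ℝ) * ∑' q : T d, w s q := by
    intro s hs hsδ
    rw [hc_def, hK_def, Finset.sum_mul, ← Finset.sum_sub_distrib]
    refine Finset.sum_le_sum fun d hd => ?_
    have hd0 : (d : ℝ) ≠ 0 := by
      have := Nat.pos_of_mem_divisors hd
      exact_mod_cast this.ne'
    have hb := hC d hd s hs (lt_of_lt_of_le hsδ (by linarith [hδ₀le d hd]))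
    have e : ((μ' d : ℤ) : ℝ) * ∑' q : T d, w s q =
        ((μ' d : ℤ) : ℝ) / (d : ℝ) * ((d : ℝ) * ∑' q : T d, w s q) := by
      field_simp
    rw [e]
    set a : ℝ := ((μ' d : ℤ) : ℝ) / (d : ℝ)
    set X : ℝ := (d : ℝ) * ∑' q : T d, w s q
    set Lg : ℝ := Real.log (1 / (s - 1))
    have h6 : a * Lg - a * X ≤ |a| * C d := by
      have : a * Lg - a * X = a * (Lg - X) := by ring
      rw [this]
      calc a * (Lg - X) ≤ |a * (Lg - X)| := le_abs_self _
        _ = |a| * |Lg - X| := abs_mul _ _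
        _ ≤ |a| * C d := by
          apply mul_le_mul_of_nonneg_left _ (abs_nonneg _)
          rw [abs_sub_comm]; exact hb
    linarith
  -- Step 4: choose `s` close to `1`.
  set Y : ℝ := (K + Gen.ncard + 1) / c with hY_def
  set ε : ℝ := min (δ₀ / 2) (Real.exp (-Y)) with hε_def
  have hε0 : 0 < ε := lt_min (by linarith) (Real.exp_pos _)
  have hεδ : ε < δ₀ := lt_of_le_of_lt (min_le_left _ _) (by linarith)
  have hεexp : ε ≤ Real.exp (-Y) := min_le_right _ _
  have hlog : Y ≤ Real.log (1 / ε) := by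
    rw [one_div, Real.log_inv]
    have := Real.log_le_log hε0 hεexp
    rw [Real.log_exp] at this
    linarith
  have hs1 : (1 : ℝ) < 1 + ε := by linarith
  have hs2 : 1 + ε < 1 + δ₀ := by linarith
  have h7 := step3 (1 + ε) hs1 hs2
  rw [step1 (1 + ε) hs1] at h7
  have h8 := step2 (1 + ε) hs1
  have h9 : (1 + ε - 1 : ℝ) = ε := by ring
  rw [h9] at h7
  have h10 : c * Y ≤ c * Real.log (1 / ε) := mul_le_mul_of_nonneg_left hlog hc.le
  have h11 : c * Y = K + Gen.ncard + 1 := by
    rw [hY_def]; field_simp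
  linarith

end Fermat.Agent.Lib.Frob
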