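import Mathlib

/-!
# Primes of a Galois number field and Frobenius elements in subgroups

Let `L/ℚ` be a Galois number field with group `G = Gal(L/ℚ)`, `D ≤ G` a subgroup with fixed
field `M = L^D`.  For a prime `𝔓` of `𝓞 L` with trivial inertia group and Frobenius `τ`:

* `τ ∈ D` implies that `𝔮 = 𝔓 ∩ 𝓞 M` has absolute norm `p` (the rational prime below `𝔓`);
* if `𝔮` has prime absolute norm, then `τ ∈ D`;
* in that case `#{primes of 𝓞 L over 𝔮} * f(𝔓 | p) = #D`.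

This is the algebraic input of the Frobenius density theorem (existence form).
-/

set_option autoImplicit false
set_option linter.unusedSectionVars false

open NumberField IsDedekindDomain

namespace Fermat.Agent.Lib.Frob

variable (L : Type*) [Field L] [NumberField L] [IsGalois ℚ L]

/-- The rational prime below a prime of `𝓞 L`. -/
noncomputable def pOf (𝔓 : HeightOneSpectrum (𝓞 L)) : ℕ := Ideal.absNorm (𝔓.asIdeal.under ℤ)

/-- The fixed field of a subgroup of `Gal(L/ℚ)`. -/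
abbrev fixF (D : Subgroup Gal(L/ℚ)) : IntermediateField ℚ L := FixedPoints.intermediateField D

theorem isGaloisGroup_fixF (D : Subgroup Gal(L/ℚ)) : IsGaloisGroup D (𝓞 (fixF L D)) (𝓞 L) :=
  IsGaloisGroup.of_isFractionRing (↥D) (𝓞 (fixF L D)) (𝓞 L) (fixF L D) L

variable {L}

theorem under_int_eq (𝔓 : HeightOneSpectrum (𝓞 L)) :
    𝔓.asIdeal.under ℤ = Ideal.span {(pOf L 𝔓 : ℤ)} :=
  (Int.ideal_span_absNorm_eq_self _).symm

theorem under_int_ne_bot (𝔓 : HeightOneSpectrum (𝓞 L)) : 𝔓.asIdeal.under ℤ ≠ ⊥ :=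
  (HeightOneSpectrum.under ℤ 𝔓).ne_bot

theorem pOf_prime (𝔓 : HeightOneSpectrum (𝓞 L)) : (pOf L 𝔓).Prime := by
  have h1 : (𝔓.asIdeal.under ℤ).IsPrime := (HeightOneSpectrum.under ℤ 𝔓).isPrime
  have h2 := under_int_ne_bot 𝔓
  rw [under_int_eq 𝔓] at h1 h2
  have h3 : (pOf L 𝔓 : ℤ) ≠ 0 := fun h => h2 (by rw [h]; simp)
  have := (Ideal.span_singleton_prime h3).mp h1
  exact Nat.prime_iff_prime_int.mpr this

theorem intCast_mem_iff (𝔓 : HeightOneSpectrum (𝓞 L)) (m : ℤ) :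
    (m : 𝓞 L) ∈ 𝔓.asIdeal ↔ (pOf L 𝔓 : ℤ) ∣ m := by
  rw [← Ideal.mem_span_singleton, ← under_int_eq 𝔓, Ideal.under_def, Ideal.mem_comap]
  simp

theorem natCast_pOf_mem (𝔓 : HeightOneSpectrum (𝓞 L)) : (pOf L 𝔓 : 𝓞 L) ∈ 𝔓.asIdeal := by
  have := (intCast_mem_iff 𝔓 (pOf L 𝔓 : ℤ)).mpr dvd_rfl
  simpa using this

theorem card_quot_under_int (𝔓 : HeightOneSpectrum (𝓞 L)) :
    Nat.card (ℤ ⧸ 𝔓.asIdeal.under ℤ) = pOf L 𝔓 := by
  rw [pOf, Ideal.absNorm_apply, Submodule.cardQuot_apply]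

theorem pOf_eq_of_natCast_mem (𝔓 : HeightOneSpectrum (𝓞 L)) {p : ℕ} (hp : p.Prime)
    (h : (p : 𝓞 L) ∈ 𝔓.asIdeal) : pOf L 𝔓 = p := by
  have h1 : ((p : ℤ) : 𝓞 L) ∈ 𝔓.asIdeal := by simpa using h
  rw [intCast_mem_iff] at h1
  have h2 : pOf L 𝔓 ∣ p := by exact_mod_cast h1
  exact ((Nat.prime_dvd_prime_iff_eq (pOf_prime 𝔓) hp).mp h2)

variable (L) in
/-- There is a nonzero integer `m` such that every prime of `𝓞 L` not containing `m` has trivial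
inertia group in `Gal(L/ℚ)`. -/
theorem exists_int_ne_zero_inertia_eq_bot :
    ∃ m : ℤ, m ≠ 0 ∧ ∀ 𝔓 : Ideal (𝓞 L), 𝔓.IsPrime → (m : 𝓞 L) ∉ 𝔓 →
      𝔓.inertia Gal(L/ℚ) = ⊥ := by
  classical
  have hx : ∀ σ : Gal(L/ℚ), σ ≠ 1 → ∃ x : 𝓞 L, σ • x ≠ x := by
    intro σ hσ
    by_contra h
    push Not at h
    apply hσ
    have hf : FaithfulSMul Gal(L/ℚ) (𝓞 L) :=
      (inferInstance : IsGaloisGroup Gal(L/ℚ) ℤ (𝓞 L)).faithful
    exact hf.eq_of_smul_eq_smul (fun x => by rw [h x, one_smul])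
  choose! x hx using hx
  set Δ : 𝓞 L := ∏ σ ∈ Finset.univ.filter (fun σ : Gal(L/ℚ) => σ ≠ 1), (σ • x σ - x σ)
    with hΔ_def
  have hΔ : Δ ≠ 0 := Finset.prod_ne_zero_iff.mpr
    (fun σ hσ => sub_ne_zero.mpr (hx σ (Finset.mem_filter.mp hσ).2))
  set N : 𝓞 L := ∏ τ : Gal(L/ℚ), τ • Δ with hN_def
  have hN : N ≠ 0 := Finset.prod_ne_zero_iff.mpr (fun τ _ => (smul_ne_zero_iff_ne τ).mpr hΔ)
  have hinv : ∀ g : Gal(L/ℚ), g • N = N := by
    intro g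
    rw [hN_def, Finset.smul_prod']
    simp only [← mul_smul]
    exact Fintype.prod_equiv (Equiv.mulLeft g) _ _ (fun _ => rfl)
  obtain ⟨m, hm⟩ := Algebra.IsInvariant.isInvariant (A := ℤ) (G := Gal(L/ℚ)) N hinv
  refine ⟨m, ?_, ?_⟩
  · rintro rfl
    rw [map_zero] at hm
    exact hN hm.symm
  · intro 𝔓 h𝔓 hm𝔓
    have hΔ𝔓 : Δ ∉ 𝔓 := by
      intro h
      apply hm𝔓
      have hN𝔓 : N ∈ 𝔓 := by
        rw [hN_def, ← Finset.mul_prod_erase Finset.univ _ (Finset.mem_univ (1 : Gal(L/ℚ))),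
          one_smul]
        exact 𝔓.mul_mem_right _ h
      rw [← hm] at hN𝔓
      simpa using hN𝔓
    rw [eq_bot_iff]
    intro σ hσ
    rw [Subgroup.mem_bot]
    by_contra hne
    apply hΔ𝔓
    have h1 : σ • x σ - x σ ∈ 𝔓 := hσ (x σ)
    have h2 : (σ • x σ - x σ) ∣ Δ :=
      Finset.dvd_prod_of_mem _ (Finset.mem_filter.mpr ⟨Finset.mem_univ _, hne⟩)
    exact Ideal.mem_of_dvd 𝔓 h2 h1

variable (L) in
/-- A prime of `𝓞 L` is *good* if all primes over the same rational prime have trivial inertia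
group in `Gal(L/ℚ)`. -/
def IsGoodPrime (𝔓 : HeightOneSpectrum (𝓞 L)) : Prop :=
  ∀ 𝔓' : HeightOneSpectrum (𝓞 L), pOf L 𝔓' = pOf L 𝔓 → 𝔓'.asIdeal.inertia Gal(L/ℚ) = ⊥

theorem IsGoodPrime.inertia_eq_bot {𝔓 : HeightOneSpectrum (𝓞 L)} (h : IsGoodPrime L 𝔓) :
    𝔓.asIdeal.inertia Gal(L/ℚ) = ⊥ := h 𝔓 rfl

theorem IsGoodPrime.of_pOf_eq {𝔓 𝔓' : HeightOneSpectrum (𝓞 L)} (h : IsGoodPrime L 𝔓)
    (h' : pOf L 𝔓' = pOf L 𝔓) : IsGoodPrime L 𝔓' :=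
  fun 𝔓'' h'' => h 𝔓'' (h''.trans h')

variable (L) in
/-- All but finitely many primes are good. -/
theorem finite_not_isGoodPrime : {𝔓 : HeightOneSpectrum (𝓞 L) | ¬ IsGoodPrime L 𝔓}.Finite := by
  obtain ⟨m, hm0, hm⟩ := exists_int_ne_zero_inertia_eq_bot L
  have hI : Ideal.span {(m : 𝓞 L)} ≠ 0 := by
    rw [Ne, Ideal.zero_eq_bot, Ideal.span_singleton_eq_bot]
    exact_mod_cast hm0
  refine (Ideal.finite_factors hI).subset ?_
  intro 𝔓 h𝔓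
  rw [Set.mem_ofPred_eq, Ideal.dvd_span_singleton]
  rw [Set.mem_ofPred_eq, IsGoodPrime] at h𝔓
  push Not at h𝔓
  obtain ⟨𝔓', hp', hin⟩ := h𝔓
  have h1 : (m : 𝓞 L) ∈ 𝔓'.asIdeal := by
    by_contra h
    exact hin (hm 𝔓'.asIdeal 𝔓'.isPrime h)
  rw [intCast_mem_iff] at h1 ⊢
  rwa [← hp']

variable (L) in
/-- The Frobenius element at a prime of `𝓞 L` (Mathlib's arbitrary choice; unique at primes with
trivial inertia). -/
noncomputable def frob (𝔓 : HeightOneSpectrum (𝓞 L)) : Gal(L/ℚ) :=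
  arithFrobAt ℤ Gal(L/ℚ) 𝔓.asIdeal

theorem isArithFrobAt_frob (𝔓 : HeightOneSpectrum (𝓞 L)) :
    IsArithFrobAt ℤ (frob L 𝔓) 𝔓.asIdeal :=
  IsArithFrobAt.arithFrobAt ℤ Gal(L/ℚ) 𝔓.asIdeal

/-- Uniqueness of the Frobenius at a prime with trivial inertia. -/
theorem eq_frob_of_inertia_eq_bot {𝔓 : HeightOneSpectrum (𝓞 L)}
    (h : 𝔓.asIdeal.inertia Gal(L/ℚ) = ⊥) {σ : Gal(L/ℚ)}
    (hσ : IsArithFrobAt ℤ σ 𝔓.asIdeal) : σ = frob L 𝔓 := by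
  have := hσ.mul_inv_mem_inertia (isArithFrobAt_frob 𝔓)
  rw [h, Subgroup.mem_bot] at this
  exact mul_inv_eq_one.mp this

/-! ### Primes of the fixed field of a subgroup -/

section fixedField

variable (D : Subgroup Gal(L/ℚ)) (𝔓 : HeightOneSpectrum (𝓞 L))

theorem under_fixF_isPrime : (𝔓.asIdeal.under (𝓞 (fixF L D))).IsPrime :=
  (HeightOneSpectrum.under (𝓞 (fixF L D)) 𝔓).isPrime

theorem under_fixF_ne_bot : 𝔓.asIdeal.under (𝓞 (fixF L D)) ≠ ⊥ :=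
  (HeightOneSpectrum.under (𝓞 (fixF L D)) 𝔓).ne_bot

theorem natCast_pOf_mem_under_fixF :
    (pOf L 𝔓 : 𝓞 (fixF L D)) ∈ 𝔓.asIdeal.under (𝓞 (fixF L D)) := by
  rw [Ideal.under_def, Ideal.mem_comap, map_natCast]
  exact natCast_pOf_mem 𝔓

/-- Elements of the subgroup `D` fix the integers of its fixed field. -/
theorem smul_algebraMap_fixF {τ : Gal(L/ℚ)} (hτ : τ ∈ D) (a : 𝓞 (fixF L D)) :
    τ • (algebraMap (𝓞 (fixF L D)) (𝓞 L) a) = algebraMap (𝓞 (fixF L D)) (𝓞 L) a := by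
  have := isGaloisGroup_fixF L D
  have h := smul_algebraMap (A := 𝓞 L) (⟨τ, hτ⟩ : D) a
  exact h

/-- If the Frobenius at `𝔓` lies in `D`, the prime of `L^D` below `𝔓` has absolute norm `p`. -/
theorem absNorm_under_of_frob_mem {τ : Gal(L/ℚ)} (hτD : τ ∈ D)
    (hτ : IsArithFrobAt ℤ τ 𝔓.asIdeal) :
    Ideal.absNorm (𝔓.asIdeal.under (𝓞 (fixF L D))) = pOf L 𝔓 := by
  classical
  set 𝔮 : Ideal (𝓞 (fixF L D)) := 𝔓.asIdeal.under (𝓞 (fixF L D)) with h𝔮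
  have hprime : 𝔮.IsPrime := under_fixF_isPrime D 𝔓
  have hne : 𝔮 ≠ ⊥ := under_fixF_ne_bot D 𝔓
  have hmax : 𝔮.IsMaximal := hprime.isMaximal hne
  set p := pOf L 𝔓 with hp_def
  have hp : p.Prime := pOf_prime 𝔓
  -- every element of `𝓞 M / 𝔮` satisfies `x ^ p = x`
  have key : ∀ a : 𝓞 (fixF L D), a ^ p - a ∈ 𝔮 := by
    intro a
    rw [h𝔮, Ideal.under_def, Ideal.mem_comap, map_sub, map_pow]
    have h1 := hτ (algebraMap (𝓞 (fixF L D)) (𝓞 L) a)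
    rw [card_quot_under_int] at h1
    have h2 : (MulSemiringAction.toAlgHom ℤ (𝓞 L) τ) (algebraMap (𝓞 (fixF L D)) (𝓞 L) a) =
        τ • (algebraMap (𝓞 (fixF L D)) (𝓞 L) a) := rfl
    rw [h2, smul_algebraMap_fixF D hτD a] at h1
    have := 𝔓.asIdeal.neg_mem h1
    rwa [neg_sub] at this
  let _ : Field (𝓞 (fixF L D) ⧸ 𝔮) := Ideal.Quotient.field 𝔮
  have hfin : Finite (𝓞 (fixF L D) ⧸ 𝔮) := Ideal.finiteQuotientOfFreeOfNeBot 𝔮 hne
  have := Fintype.ofFinite (𝓞 (fixF L D) ⧸ 𝔮)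
  have hcard : Ideal.absNorm 𝔮 = Fintype.card (𝓞 (fixF L D) ⧸ 𝔮) := by
    rw [Ideal.absNorm_apply, Submodule.cardQuot_apply, Nat.card_eq_fintype_card]
  rw [hcard]
  have hpow : ∀ y : 𝓞 (fixF L D) ⧸ 𝔮, y ^ p = y := by
    intro y
    obtain ⟨a, rfl⟩ := Ideal.Quotient.mk_surjective y
    rw [← map_pow, ← sub_eq_zero, ← map_sub, Ideal.Quotient.eq_zero_iff_mem]
    exact key a
  -- upper bound
  have hle : Fintype.card (𝓞 (fixF L D) ⧸ 𝔮) ≤ p := by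
    have hdeg : (Polynomial.X ^ p - Polynomial.X : Polynomial (𝓞 (fixF L D) ⧸ 𝔮)).natDegree = p :=
      FiniteField.X_pow_card_sub_X_natDegree_eq _ hp.one_lt
    have hne0 : (Polynomial.X ^ p - Polynomial.X : Polynomial (𝓞 (fixF L D) ⧸ 𝔮)) ≠ 0 :=
      FiniteField.X_pow_card_sub_X_ne_zero _ hp.one_lt
    have hsub : (Finset.univ : Finset (𝓞 (fixF L D) ⧸ 𝔮)).val ⊆
        (Polynomial.X ^ p - Polynomial.X : Polynomial (𝓞 (fixF L D) ⧸ 𝔮)).roots := by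
      intro y _
      rw [Polynomial.mem_roots hne0, Polynomial.IsRoot.def]
      simp [hpow y]
    have := Polynomial.card_le_degree_of_subset_roots hsub
    rwa [hdeg, Finset.card_univ] at this
  -- lower bound
  have hge : p ≤ Fintype.card (𝓞 (fixF L D) ⧸ 𝔮) := by
    have h0 : ((p : ℕ) : 𝓞 (fixF L D) ⧸ 𝔮) = 0 := by
      have := natCast_pOf_mem_under_fixF D 𝔓
      rw [← Ideal.Quotient.eq_zero_iff_mem, map_natCast] at this
      exact this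
    have h1 : addOrderOf (1 : 𝓞 (fixF L D) ⧸ 𝔮) ∣ p := by
      apply addOrderOf_dvd_of_nsmul_eq_zero
      rw [nsmul_one]; exact h0
    have h2 : addOrderOf (1 : 𝓞 (fixF L D) ⧸ 𝔮) ≠ 1 := by
      rw [Ne, AddMonoid.addOrderOf_eq_one_iff]
      exact one_ne_zero
    have h3 : addOrderOf (1 : 𝓞 (fixF L D) ⧸ 𝔮) = p :=
      (Nat.dvd_prime hp).mp h1 |>.resolve_left h2
    have h4 := addOrderOf_dvd_card (x := (1 : 𝓞 (fixF L D) ⧸ 𝔮))
    rw [h3] at h4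
    exact Nat.le_of_dvd Fintype.card_pos h4
  exact le_antisymm hle hge

/-- If the prime of `L^D` below `𝔓` has prime absolute norm, that norm is `p`. -/
theorem absNorm_under_eq_pOf_of_prime
    (hprime : (Ideal.absNorm (𝔓.asIdeal.under (𝓞 (fixF L D)))).Prime) :
    Ideal.absNorm (𝔓.asIdeal.under (𝓞 (fixF L D))) = pOf L 𝔓 := by
  set 𝔮 := 𝔓.asIdeal.under (𝓞 (fixF L D)) with h𝔮
  have h1 : ((Ideal.absNorm 𝔮 : ℕ) : 𝓞 (fixF L D)) ∈ 𝔮 := Ideal.absNorm_mem 𝔮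
  rw [h𝔮, Ideal.under_def, Ideal.mem_comap, map_natCast] at h1
  have h2 : (((Ideal.absNorm 𝔮 : ℕ) : ℤ) : 𝓞 L) ∈ 𝔓.asIdeal := by simpa using h1
  rw [intCast_mem_iff] at h2
  have h3 : pOf L 𝔓 ∣ Ideal.absNorm 𝔮 := by exact_mod_cast h2
  exact ((Nat.prime_dvd_prime_iff_eq (pOf_prime 𝔓) hprime).mp h3).symm

/-- If `𝔓` has trivial inertia and the prime of `L^D` below it has prime absolute norm, then the
Frobenius at `𝔓` lies in `D`. -/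
theorem frob_mem_of_absNorm_prime (hgood : 𝔓.asIdeal.inertia Gal(L/ℚ) = ⊥)
    (hprime : (Ideal.absNorm (𝔓.asIdeal.under (𝓞 (fixF L D)))).Prime) : frob L 𝔓 ∈ D := by
  have hG := isGaloisGroup_fixF L D
  have hN := absNorm_under_eq_pOf_of_prime D 𝔓 hprime
  obtain ⟨τ', hτ'⟩ := IsArithFrobAt.exists_of_isInvariant (𝓞 (fixF L D)) D 𝔓.asIdeal
  have hτ : IsArithFrobAt ℤ (τ' : Gal(L/ℚ)) 𝔓.asIdeal := by
    intro x
    have h1 := hτ' x
    rw [card_quot_under_int]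
    have hc : Nat.card (𝓞 (fixF L D) ⧸ 𝔓.asIdeal.under (𝓞 (fixF L D))) = pOf L 𝔓 := by
      rw [← hN, Ideal.absNorm_apply, Submodule.cardQuot_apply]
    rw [hc] at h1
    exact h1
  rw [← eq_frob_of_inertia_eq_bot hgood hτ]
  exact τ'.2

/-- The prime of `L^D` below `𝔓` has residue degree one over `ℤ` if its norm is `p`. -/
theorem inertiaDeg_under_eq_one
    (hnorm : Ideal.absNorm (𝔓.asIdeal.under (𝓞 (fixF L D))) = pOf L 𝔓) :
    (𝔓.asIdeal.under (𝓞 (fixF L D))).inertiaDeg ℤ = 1 := by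
  set 𝔮 := 𝔓.asIdeal.under (𝓞 (fixF L D)) with h𝔮
  have hprime : 𝔮.IsPrime := under_fixF_isPrime D 𝔓
  have hne : 𝔮 ≠ ⊥ := under_fixF_ne_bot D 𝔓
  have hmax : 𝔮.IsMaximal := hprime.isMaximal hne
  have hp : (pOf L 𝔓).Prime := pOf_prime 𝔓
  have hunder : 𝔮.under ℤ = Ideal.span {(pOf L 𝔓 : ℤ)} := by
    rw [h𝔮, Ideal.under_under, under_int_eq]
  have hlies : 𝔮.LiesOver (Ideal.span {(pOf L 𝔓 : ℤ)}) := ⟨hunder.symm⟩
  have hpmax : (Ideal.span {(pOf L 𝔓 : ℤ)}).IsMaximal := by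
    have h1 : (Ideal.span {(pOf L 𝔓 : ℤ)}).IsPrime := by
      rw [← hunder]; exact Ideal.IsPrime.under ℤ 𝔮
    exact h1.isMaximal (by
      rw [Ne, Ideal.span_singleton_eq_bot]; exact_mod_cast hp.ne_zero)
  have h1 := Ideal.absNorm_eq_pow_inertiaDeg' 𝔮 hp
  rw [hnorm, Ideal.inertiaDeg'_eq_inertiaDeg] at h1
  have h2 : pOf L 𝔓 ^ 1 = pOf L 𝔓 ^ (𝔮.inertiaDeg ℤ) := by rw [pow_one]; exact h1
  exact (Nat.pow_right_injective hp.two_le h2).symm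

/-- The counting formula: for a prime `𝔓` with trivial inertia whose restriction `𝔮` to `L^D`
has norm `p`, `#{primes over 𝔮} * f(𝔓 | p) = #D`. -/
theorem ncard_primesOver_mul_inertiaDeg (hgood : 𝔓.asIdeal.inertia Gal(L/ℚ) = ⊥)
    (hnorm : Ideal.absNorm (𝔓.asIdeal.under (𝓞 (fixF L D))) = pOf L 𝔓) :
    ((𝔓.asIdeal.under (𝓞 (fixF L D))).primesOver (𝓞 L)).ncard * 𝔓.asIdeal.inertiaDeg ℤ =
      Nat.card D := by
  have hG := isGaloisGroup_fixF L D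
  set 𝔮 := 𝔓.asIdeal.under (𝓞 (fixF L D)) with h𝔮
  have hprime : 𝔮.IsPrime := under_fixF_isPrime D 𝔓
  have hcount := Ideal.ncard_primesOver_mul_card_inertia_mul_finrank (G := D) 𝔮 𝔓.asIdeal
  have hin : Nat.card (𝔓.asIdeal.inertia D) = 1 := by
    rw [Subgroup.card_eq_one, eq_bot_iff]
    intro σ hσ
    have h1 : (σ : Gal(L/ℚ)) ∈ 𝔓.asIdeal.inertia Gal(L/ℚ) := fun x => hσ x
    rw [hgood, Subgroup.mem_bot] at h1
    rw [Subgroup.mem_bot]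
    exact Subtype.ext h1
  rw [hin, mul_one] at hcount
  have htower : 𝔓.asIdeal.inertiaDeg ℤ =
      𝔮.inertiaDeg ℤ * 𝔓.asIdeal.inertiaDeg (𝓞 (fixF L D)) :=
    Ideal.inertiaDeg_tower 𝔮 𝔓.asIdeal
  rw [htower, inertiaDeg_under_eq_one D 𝔓 hnorm, one_mul]
  exact hcount

end fixedField

end Fermat.Agent.Lib.Frob
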