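import Fermat.Agent.Lib.Frob.CyclicCore
import Fermat.Agent.Lib.Frob.GaloisPrimes
import Fermat.Agent.Lib.Frob.PrimeZeta

/-!
# The Frobenius density theorem (existence form) for a Galois number field

For a Galois number field `L/ℚ`, an element `g ∈ Gal(L/ℚ)` and a finite set `S` of rational
primes, there is a prime `𝔓` of `𝓞 L` over a rational prime `p ∉ S`, with trivial inertia, whose
Frobenius element generates the same cyclic subgroup as `g`
(`exists_prime_arithFrob_generates`).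

Proof: for a subgroup `D ≤ G` with fixed field `M`, the primes `𝔓` of `L` with Frobenius in `D`
fibre over the degree-one primes of `M`, the fibre over `𝔮` having `#D / f(𝔓 | p)` elements.  Hence
`∑_{Frob 𝔓 ∈ D} f(𝔓) p^(-s) = #D · ∑_{𝔮 of degree one} N𝔮^(-s) = #D · log (1/(s-1)) + O(1)`.
Möbius inversion over the subgroups of `⟨g⟩` (abstract core `infinite_of_moebius_zeta`) concludes.
-/

set_option autoImplicit false
set_option linter.unusedSectionVars false

open NumberField IsDedekindDomain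

namespace Fermat.Agent.Lib.Frob

variable {L : Type*} [Field L] [NumberField L] [IsGalois ℚ L]

/-- The good primes of `𝓞 L` whose Frobenius lies in the subgroup `D`. -/
def frobSet (D : Subgroup Gal(L/ℚ)) : Set (HeightOneSpectrum (𝓞 L)) :=
  {𝔓 | IsGoodPrime L 𝔓 ∧ frob L 𝔓 ∈ D}

/-- The prime of the fixed field of `D` below a prime of `𝓞 L`. -/
abbrev underF (D : Subgroup Gal(L/ℚ)) (𝔓 : HeightOneSpectrum (𝓞 L)) :
    HeightOneSpectrum (𝓞 (fixF L D)) :=
  HeightOneSpectrum.under (𝓞 (fixF L D)) 𝔓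

/-- The primes of the fixed field of `D` below the primes in `frobSet D`. -/
def frobImage (D : Subgroup Gal(L/ℚ)) : Set (HeightOneSpectrum (𝓞 (fixF L D))) :=
  {𝔮 | ∃ 𝔓 ∈ frobSet D, underF D 𝔓 = 𝔮}

/-- The weight `f(𝔓 | p) · p^(-s)` of a prime of `𝓞 L`. -/
noncomputable def frobWt (s : ℝ) (𝔓 : HeightOneSpectrum (𝓞 L)) : ℝ :=
  (𝔓.asIdeal.inertiaDeg ℤ : ℝ) * (pOf L 𝔓 : ℝ) ^ (-s)

theorem frobWt_nonneg (s : ℝ) (𝔓 : HeightOneSpectrum (𝓞 L)) : 0 ≤ frobWt s 𝔓 :=
  mul_nonneg (Nat.cast_nonneg _) (Real.rpow_nonneg (Nat.cast_nonneg _) _)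

theorem pOf_eq_of_underF_eq (D : Subgroup Gal(L/ℚ)) {𝔓 𝔓' : HeightOneSpectrum (𝓞 L)}
    (h : underF D 𝔓 = underF D 𝔓') : pOf L 𝔓 = pOf L 𝔓' := by
  have h1 : 𝔓.asIdeal.under (𝓞 (fixF L D)) = 𝔓'.asIdeal.under (𝓞 (fixF L D)) :=
    congrArg HeightOneSpectrum.asIdeal h
  have h2 : 𝔓.asIdeal.under ℤ = 𝔓'.asIdeal.under ℤ := by
    rw [← Ideal.under_under (B := 𝓞 (fixF L D)) 𝔓.asIdeal,
      ← Ideal.under_under (B := 𝓞 (fixF L D)) 𝔓'.asIdeal, h1]
  unfold pOf
  rw [h2]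

theorem absNorm_underF {D : Subgroup Gal(L/ℚ)} {𝔓 : HeightOneSpectrum (𝓞 L)}
    (h : 𝔓 ∈ frobSet D) : Ideal.absNorm (underF D 𝔓).asIdeal = pOf L 𝔓 :=
  absNorm_under_of_frob_mem D 𝔓 h.2 (isArithFrobAt_frob 𝔓)

theorem mem_frobSet_of_underF_eq {D : Subgroup Gal(L/ℚ)} {𝔓₀ 𝔓 : HeightOneSpectrum (𝓞 L)}
    (h₀ : 𝔓₀ ∈ frobSet D) (h : underF D 𝔓 = underF D 𝔓₀) : 𝔓 ∈ frobSet D := by
  have hp : pOf L 𝔓 = pOf L 𝔓₀ := pOf_eq_of_underF_eq D h
  have hgood : IsGoodPrime L 𝔓 := h₀.1.of_pOf_eq hp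
  refine ⟨hgood, frob_mem_of_absNorm_prime D 𝔓 hgood.inertia_eq_bot ?_⟩
  have h1 : 𝔓.asIdeal.under (𝓞 (fixF L D)) = (underF D 𝔓₀).asIdeal :=
    congrArg HeightOneSpectrum.asIdeal h
  rw [h1, absNorm_underF h₀]
  exact pOf_prime 𝔓₀

theorem frobImage_subset_degOne (D : Subgroup Gal(L/ℚ)) :
    frobImage D ⊆ degOne (fixF L D) := by
  rintro 𝔮 ⟨𝔓, h𝔓, rfl⟩
  show (Ideal.absNorm (underF D 𝔓).asIdeal).Prime
  rw [absNorm_underF h𝔓]
  exact pOf_prime 𝔓

/-- Every prime of the fixed field lies below a prime of `𝓞 L`. -/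
theorem exists_underF_eq (D : Subgroup Gal(L/ℚ)) (𝔮 : HeightOneSpectrum (𝓞 (fixF L D))) :
    ∃ 𝔓 : HeightOneSpectrum (𝓞 L), underF D 𝔓 = 𝔮 := by
  have hmax : 𝔮.asIdeal.IsMaximal := 𝔮.isPrime.isMaximal 𝔮.ne_bot
  obtain ⟨Q, hQmax, hQ⟩ := Ideal.exists_maximal_ideal_liesOver_of_isIntegral (S := 𝓞 L) 𝔮.asIdeal
  have hne : Q ≠ ⊥ := by
    rintro rfl
    have h1 : 𝔮.asIdeal = (⊥ : Ideal (𝓞 L)).under (𝓞 (fixF L D)) := hQ.over
    have h2 : (⊥ : Ideal (𝓞 L)).under (𝓞 (fixF L D)) = ⊥ := by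
      rw [Ideal.under_def]
      exact Ideal.comap_bot_of_injective _ (FaithfulSMul.algebraMap_injective _ _)
    exact 𝔮.ne_bot (h1.trans h2)
  refine ⟨⟨Q, hQmax.isPrime, hne⟩, ?_⟩
  apply HeightOneSpectrum.ext
  exact hQ.over.symm

theorem finite_degOne_diff_frobImage (D : Subgroup Gal(L/ℚ)) :
    (degOne (fixF L D) \ frobImage D).Finite := by
  refine ((finite_not_isGoodPrime L).image (underF D)).subset ?_
  rintro 𝔮 ⟨h𝔮, hnot⟩
  obtain ⟨𝔓, rfl⟩ := exists_underF_eq D 𝔮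
  refine ⟨𝔓, ?_, rfl⟩
  intro hgood
  apply hnot
  exact ⟨𝔓, ⟨hgood, frob_mem_of_absNorm_prime D 𝔓 hgood.inertia_eq_bot h𝔮⟩, rfl⟩

/-- The fibre of `underF D` is the set of primes over a prime of the fixed field. -/
noncomputable def fibrePrimesOverEquiv (D : Subgroup Gal(L/ℚ))
    (𝔮 : HeightOneSpectrum (𝓞 (fixF L D))) :
    {𝔓 : HeightOneSpectrum (𝓞 L) // underF D 𝔓 = 𝔮} ≃ ↥(𝔮.asIdeal.primesOver (𝓞 L)) where
  toFun x := ⟨x.1.asIdeal, x.1.isPrime, ⟨(congrArg HeightOneSpectrum.asIdeal x.2).symm⟩⟩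
  invFun P := ⟨⟨P.1, P.2.1, by
      rintro h
      have h1 : 𝔮.asIdeal = P.1.under (𝓞 (fixF L D)) := P.2.2.over
      rw [h, Ideal.under_def,
        Ideal.comap_bot_of_injective _ (FaithfulSMul.algebraMap_injective _ _)] at h1
      exact 𝔮.ne_bot h1⟩,
    HeightOneSpectrum.ext P.2.2.over.symm⟩
  left_inv x := rfl
  right_inv P := rfl

/-- The sum of the weights over the fibre above a prime `𝔮 ∈ frobImage D`. -/
theorem frobWt_fibre (D : Subgroup Gal(L/ℚ)) (s : ℝ) (𝔮 : HeightOneSpectrum (𝓞 (fixF L D)))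
    (h𝔮 : 𝔮 ∈ frobImage D) :
    Finite {𝔓 : HeightOneSpectrum (𝓞 L) // 𝔓 ∈ frobSet D ∧ underF D 𝔓 = 𝔮} ∧
      ∑' x : {𝔓 : HeightOneSpectrum (𝓞 L) // 𝔓 ∈ frobSet D ∧ underF D 𝔓 = 𝔮}, frobWt s x.1 =
        (Nat.card D : ℝ) * pw (fixF L D) s 𝔮 := by
  classical
  obtain ⟨𝔓₀, h₀, rfl⟩ := h𝔮
  have hmax : (underF D 𝔓₀).asIdeal.IsMaximal :=
    (underF D 𝔓₀).isPrime.isMaximal (underF D 𝔓₀).ne_bot
  let e₁ : {𝔓 : HeightOneSpectrum (𝓞 L) // 𝔓 ∈ frobSet D ∧ underF D 𝔓 = underF D 𝔓₀} ≃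
      {𝔓 : HeightOneSpectrum (𝓞 L) // underF D 𝔓 = underF D 𝔓₀} :=
    Equiv.subtypeEquivRight (fun 𝔓 => ⟨fun h => h.2, fun h => ⟨mem_frobSet_of_underF_eq h₀ h, h⟩⟩)
  let e := e₁.trans (fibrePrimesOverEquiv D (underF D 𝔓₀))
  have hfinP : Finite ↥((underF D 𝔓₀).asIdeal.primesOver (𝓞 L)) :=
    (IsDedekindDomain.primesOver_finite (underF D 𝔓₀).asIdeal (𝓞 L)).to_subtype
  have hfin : Finite {𝔓 : HeightOneSpectrum (𝓞 L) // 𝔓 ∈ frobSet D ∧ underF D 𝔓 = underF D 𝔓₀} :=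
    Finite.of_equiv _ e.symm
  refine ⟨hfin, ?_⟩
  set c : ℕ := ((underF D 𝔓₀).asIdeal.primesOver (𝓞 L)).ncard with hc_def
  have hc : Nat.card {𝔓 : HeightOneSpectrum (𝓞 L) // 𝔓 ∈ frobSet D ∧ underF D 𝔓 = underF D 𝔓₀}
      = c := (Nat.card_congr e).trans (Nat.card_coe_set_eq _)
  have hc0 : c ≠ 0 := by
    rw [← hc]
    have : Nonempty {𝔓 : HeightOneSpectrum (𝓞 L) // 𝔓 ∈ frobSet D ∧ underF D 𝔓 = underF D 𝔓₀} :=
      ⟨⟨𝔓₀, h₀, rfl⟩⟩
    exact Nat.card_pos.ne'
  have hterm : ∀ x : {𝔓 : HeightOneSpectrum (𝓞 L) // 𝔓 ∈ frobSet D ∧ underF D 𝔓 = underF D 𝔓₀},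
      frobWt s x.1 = (Nat.card D : ℝ) * pw (fixF L D) s (underF D 𝔓₀) / c := by
    intro x
    have hx : x.1 ∈ frobSet D := x.2.1
    have hnorm := absNorm_underF hx
    have hcount := ncard_primesOver_mul_inertiaDeg D x.1 hx.1.inertia_eq_bot hnorm
    have hu : x.1.asIdeal.under (𝓞 (fixF L D)) = (underF D 𝔓₀).asIdeal :=
      congrArg HeightOneSpectrum.asIdeal x.2.2
    rw [hu] at hcount
    have hp : pOf L x.1 = Ideal.absNorm (underF D 𝔓₀).asIdeal := by
      rw [← hnorm, x.2.2]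
    have hc' : (c : ℝ) ≠ 0 := by exact_mod_cast hc0
    rw [eq_div_iff hc']
    unfold frobWt pw wt
    rw [hp, ← hcount]
    push_cast
    ring
  have := Fintype.ofFinite
    {𝔓 : HeightOneSpectrum (𝓞 L) // 𝔓 ∈ frobSet D ∧ underF D 𝔓 = underF D 𝔓₀}
  rw [tsum_fintype]
  simp only [hterm]
  rw [Finset.sum_const, Finset.card_univ, ← Nat.card_eq_fintype_card, hc, nsmul_eq_mul]
  have hc' : (c : ℝ) ≠ 0 := by exact_mod_cast hc0
  field_simp

/-- The weighted sum over `frobSet D` is `#D` times the zeta sum over `frobImage D`. -/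
theorem tsum_frobWt (D : Subgroup Gal(L/ℚ)) {s : ℝ} (hs : 1 < s) :
    Summable (fun x : frobSet D => frobWt s x.1) ∧
      ∑' x : frobSet D, frobWt s x.1 =
        (Nat.card D : ℝ) * ∑' 𝔮 : frobImage D, pw (fixF L D) s 𝔮.1 :=
  summable_and_tsum_fibre_of_sum (underF D) (frobSet D) (frobImage D) (frobWt s)
    (pw (fixF L D) s) (frobWt_nonneg s) (summable_pw_subtype (fixF L D) _ hs) _
    (fun x hx => ⟨x, hx, rfl⟩) (fun 𝔮 h𝔮 => frobWt_fibre D s 𝔮 h𝔮)

/-- The zeta sum over `frobImage D` differs from the zeta sum over all degree-one primes by a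
bounded amount. -/
theorem abs_tsum_frobImage_sub_le (D : Subgroup Gal(L/ℚ)) {s : ℝ} (hs : 1 < s) :
    |∑' 𝔮 : frobImage D, pw (fixF L D) s 𝔮.1 -
        NumberField.Set.primeIdealZetaSum (degOne (fixF L D)) s| ≤
      ((degOne (fixF L D) \ frobImage D).ncard : ℝ) := by
  have hfin := finite_degOne_diff_frobImage D
  have hunion : frobImage D ∪ (degOne (fixF L D) \ frobImage D) = degOne (fixF L D) :=
    Set.union_sdiff_cancel (frobImage_subset_degOne D)
  have h1 := primeIdealZetaSum_union (K := fixF L D) (S := frobImage D)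
    (T := degOne (fixF L D) \ frobImage D) Set.disjoint_sdiff_right hs
  rw [hunion] at h1
  have h2 := primeIdealZetaSum_nonneg' (K := fixF L D) (degOne (fixF L D) \ frobImage D) s
  have h3 := NumberField.Set.primeIdealZetaSum_le_card_of_finite hfin (s := s) (by linarith)
  rw [primeIdealZetaSum_eq (fixF L D) (frobImage D) s] at h1
  rw [h1, abs_le]
  constructor <;> linarith

variable (L) in
/-- Only finitely many primes of `𝓞 L` lie over a given rational prime. -/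
theorem finite_setOf_pOf_eq (p : ℕ) : {𝔓 : HeightOneSpectrum (𝓞 L) | pOf L 𝔓 = p}.Finite := by
  rcases Nat.eq_zero_or_pos p with rfl | hp
  · have : {𝔓 : HeightOneSpectrum (𝓞 L) | pOf L 𝔓 = 0} = ∅ := by
      ext 𝔓
      simp only [Set.mem_ofPred_eq, Set.mem_empty_iff_false, iff_false]
      exact (pOf_prime 𝔓).ne_zero
    rw [this]
    exact Set.finite_empty
  · have hI : Ideal.span {(p : 𝓞 L)} ≠ 0 := by
      rw [Ne, Ideal.zero_eq_bot, Ideal.span_singleton_eq_bot]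
      exact_mod_cast hp.ne'
    refine (Ideal.finite_factors hI).subset ?_
    intro 𝔓 h𝔓
    rw [Set.mem_ofPred_eq] at h𝔓 ⊢
    rw [Ideal.dvd_span_singleton, ← h𝔓]
    exact natCast_pOf_mem 𝔓

/-- **Frobenius density theorem, existence form**, for a Galois number field `L/ℚ`: every
cyclic subgroup of `Gal(L/ℚ)` is generated by the Frobenius element of an unramified prime, lying
over a rational prime outside any given finite set. -/
theorem exists_prime_arithFrob_generates (L : Type*) [Field L] [NumberField L] [IsGalois ℚ L]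
    (g : Gal(L/ℚ)) (S : Set ℕ) (hS : S.Finite) :
    ∃ (p : ℕ) (P : Ideal (𝓞 L)) (τ : Gal(L/ℚ)), p.Prime ∧ p ∉ S ∧ P.IsPrime ∧ (p : 𝓞 L) ∈ P ∧
      P.inertia Gal(L/ℚ) = ⊥ ∧ IsArithFrobAt ℤ τ P ∧
      Subgroup.zpowers τ = Subgroup.zpowers g := by
  classical
  set n := orderOf g with hn_def
  have hn : 0 < n := orderOf_pos g
  let Dd : ℕ → Subgroup Gal(L/ℚ) := fun d => Subgroup.zpowers (g ^ d)
  let T : ℕ → Set (HeightOneSpectrum (𝓞 L)) := fun d => frobSet (Dd d)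
  let Gen : Set (HeightOneSpectrum (𝓞 L)) :=
    {𝔓 | IsGoodPrime L 𝔓 ∧ Subgroup.zpowers (frob L 𝔓) = Subgroup.zpowers g}
  let w : ℝ → HeightOneSpectrum (𝓞 L) → ℝ :=
    fun s => Set.indicator (T 1) (fun 𝔓 => frobWt s 𝔓 / n)
  have hD1 : Dd 1 = Subgroup.zpowers g := by
    show Subgroup.zpowers (g ^ 1) = Subgroup.zpowers g
    rw [pow_one]
  have hDle : ∀ d, Dd d ≤ Subgroup.zpowers g := fun d =>
    Subgroup.zpowers_le.mpr (Subgroup.pow_mem _ (Subgroup.mem_zpowers g) d)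
  have hcardD : ∀ d, d ∣ n → Nat.card (Dd d) = n / d := by
    intro d hd
    show Nat.card (Subgroup.zpowers (g ^ d)) = n / d
    rw [Nat.card_zpowers, orderOf_pow, ← hn_def, Nat.gcd_eq_right hd]
  have hTsub : ∀ d, T d ⊆ T 1 := by
    intro d 𝔓 h
    refine ⟨h.1, ?_⟩
    rw [hD1]
    exact hDle d h.2
  -- (1) the weights are at most `1`
  have hw1 : ∀ s, 1 < s → ∀ q, w s q ≤ 1 := by
    intro s hs q
    show Set.indicator (T 1) (fun 𝔓 => frobWt s 𝔓 / n) q ≤ 1
    by_cases hq : q ∈ T 1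
    · rw [Set.indicator_of_mem hq]
      have hnorm := absNorm_underF hq
      have hcount := ncard_primesOver_mul_inertiaDeg (Dd 1) q hq.1.inertia_eq_bot hnorm
      rw [hcardD 1 (one_dvd _), Nat.div_one] at hcount
      have hf : q.asIdeal.inertiaDeg ℤ ≤ n := by
        rcases Nat.eq_zero_or_pos
          (((q.asIdeal.under (𝓞 (fixF L (Dd 1)))).primesOver (𝓞 L)).ncard) with h0 | h0
        · rw [h0, zero_mul] at hcount; omega
        · calc q.asIdeal.inertiaDeg ℤ = 1 * q.asIdeal.inertiaDeg ℤ := (one_mul _).symm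
            _ ≤ ((q.asIdeal.under (𝓞 (fixF L (Dd 1)))).primesOver (𝓞 L)).ncard *
                q.asIdeal.inertiaDeg ℤ := Nat.mul_le_mul_right _ h0
            _ = n := hcount
      have hp1 : ((pOf L q : ℕ) : ℝ) ^ (-s) ≤ 1 := by
        apply Real.rpow_le_one_of_one_le_of_nonpos
        · exact_mod_cast (pOf_prime q).one_le
        · linarith
      have hn' : (0 : ℝ) < n := by exact_mod_cast hn
      rw [div_le_one hn']
      unfold frobWt
      have hf' : ((q.asIdeal.inertiaDeg ℤ : ℕ) : ℝ) ≤ n := by exact_mod_cast hf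
      calc ((q.asIdeal.inertiaDeg ℤ : ℕ) : ℝ) * ((pOf L q : ℕ) : ℝ) ^ (-s)
          ≤ ((q.asIdeal.inertiaDeg ℤ : ℕ) : ℝ) * 1 :=
            mul_le_mul_of_nonneg_left hp1 (Nat.cast_nonneg _)
        _ ≤ n := by rw [mul_one]; exact hf'
    · rw [Set.indicator_of_notMem hq]
      exact zero_le_one
  -- (2) summability
  have hsum : ∀ s, 1 < s → Summable (w s) := by
    intro s hs
    have h1 := (tsum_frobWt (Dd 1) hs).1
    have h2 : Summable (fun x : T 1 => frobWt s x.1 / n) := h1.div_const _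
    exact (summable_subtype_iff_indicator).mp h2
  -- (3) the Möbius identity
  have hmoeb : ∀ q, ∑ d ∈ n.divisors, ((ArithmeticFunction.moebius d : ℤ) : ℝ) *
      Set.indicator (T d) 1 q = Set.indicator Gen 1 q := by
    intro q
    by_cases hgood : IsGoodPrime L q
    · set σ := frob L q with hσ_def
      have hT : ∀ d, Set.indicator (T d) (1 : HeightOneSpectrum (𝓞 L) → ℝ) q =
          if σ ∈ Subgroup.zpowers (g ^ d) then 1 else 0 := by
        intro d
        by_cases h : σ ∈ Subgroup.zpowers (g ^ d)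
        · rw [if_pos h, Set.indicator_of_mem (show q ∈ T d from ⟨hgood, h⟩)]
          rfl
        · rw [if_neg h, Set.indicator_of_notMem (show q ∉ T d from fun h' => h h'.2)]
      have hG : Set.indicator Gen (1 : HeightOneSpectrum (𝓞 L) → ℝ) q =
          if Subgroup.zpowers σ = Subgroup.zpowers g then 1 else 0 := by
        by_cases h : Subgroup.zpowers σ = Subgroup.zpowers g
        · rw [if_pos h, Set.indicator_of_mem (show q ∈ Gen from ⟨hgood, h⟩)]
          rfl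
        · rw [if_neg h, Set.indicator_of_notMem (show q ∉ Gen from fun h' => h h'.2)]
      simp only [hT]
      rw [hG]
      by_cases hσ : σ ∈ Subgroup.zpowers g
      · let γ : Subgroup.zpowers g := ⟨g, Subgroup.mem_zpowers g⟩
        let σ' : Subgroup.zpowers g := ⟨σ, hσ⟩
        have hγ : ∀ x : Subgroup.zpowers g, x ∈ Subgroup.zpowers γ := by
          intro x
          obtain ⟨k, hk⟩ := Subgroup.mem_zpowers_iff.mp x.2
          exact Subgroup.mem_zpowers_iff.mpr ⟨k, Subtype.ext (by simpa using hk)⟩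
        have hcard : Nat.card (Subgroup.zpowers g) = n := Nat.card_zpowers g
        have key := sum_moebius_mem_zpowers_pow_real hγ σ'
        rw [hcard] at key
        have e1 : ∀ d : ℕ, (σ' ∈ Subgroup.zpowers (γ ^ d)) ↔ (σ ∈ Subgroup.zpowers (g ^ d)) := by
          intro d
          constructor
          · intro h
            obtain ⟨k, hk⟩ := Subgroup.mem_zpowers_iff.mp h
            refine Subgroup.mem_zpowers_iff.mpr ⟨k, ?_⟩
            have := congrArg Subtype.val hk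
            simpa using this
          · intro h
            obtain ⟨k, hk⟩ := Subgroup.mem_zpowers_iff.mp h
            exact Subgroup.mem_zpowers_iff.mpr ⟨k, Subtype.ext (by simpa using hk)⟩
        have e2 : (Subgroup.zpowers σ' = ⊤) ↔ (Subgroup.zpowers σ = Subgroup.zpowers g) := by
          constructor
          · intro h
            apply le_antisymm
            · exact Subgroup.zpowers_le.mpr hσ
            · apply Subgroup.zpowers_le.mpr
              have hmem : γ ∈ Subgroup.zpowers σ' := by rw [h]; exact Subgroup.mem_top _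
              obtain ⟨k, hk⟩ := Subgroup.mem_zpowers_iff.mp hmem
              refine Subgroup.mem_zpowers_iff.mpr ⟨k, ?_⟩
              have := congrArg Subtype.val hk
              simpa using this
          · intro h
            rw [eq_top_iff]
            intro x _
            have hx : x.1 ∈ Subgroup.zpowers σ := by rw [h]; exact x.2
            obtain ⟨k, hk⟩ := Subgroup.mem_zpowers_iff.mp hx
            exact Subgroup.mem_zpowers_iff.mpr ⟨k, Subtype.ext (by simpa using hk)⟩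
        rw [show (if Subgroup.zpowers σ' = ⊤ then (1 : ℝ) else 0) =
          if Subgroup.zpowers σ = Subgroup.zpowers g then 1 else 0 from if_congr e2 rfl rfl] at key
        rw [← key]
        refine Finset.sum_congr rfl fun d _ => ?_
        rw [if_congr (e1 d) rfl rfl]
      · have h1 : ∀ d, σ ∉ Subgroup.zpowers (g ^ d) := fun d h => hσ (hDle d h)
        have h2 : Subgroup.zpowers σ ≠ Subgroup.zpowers g :=
          fun h => hσ (h ▸ Subgroup.mem_zpowers σ)
        simp [h1, h2]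
    · have h1 : ∀ d, q ∉ T d := fun d h => hgood h.1
      have h2 : q ∉ Gen := fun h => hgood h.1
      simp [Set.indicator_of_notMem, h1, h2]
  -- (4) the asymptotics
  have hZ : ∀ d ∈ n.divisors, ∃ C δ : ℝ, 0 < δ ∧ ∀ s : ℝ, 1 < s → s < 1 + δ →
      |(d : ℝ) * ∑' q : T d, w s q - Real.log (1 / (s - 1))| ≤ C := by
    intro d hd
    have hdn : d ∣ n := (Nat.mem_divisors.mp hd).1
    have hd0 : 0 < d := Nat.pos_of_mem_divisors hd
    obtain ⟨C, δ, hδ, hC⟩ := primeIdealZetaSum_degOne_sub_log_bounded (fixF L (Dd d))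
    refine ⟨C + ((degOne (fixF L (Dd d)) \ frobImage (Dd d)).ncard : ℝ), δ, hδ,
      fun s hs hsδ => ?_⟩
    have h1 := (tsum_frobWt (Dd d) hs).2
    have h2 := abs_tsum_frobImage_sub_le (Dd d) hs
    have h3 := hC s hs hsδ
    have h4 : ∑' q : T d, w s q = (∑' q : T d, frobWt s q.1) / n := by
      rw [← tsum_div_const]
      refine tsum_congr fun q => ?_
      show Set.indicator (T 1) (fun 𝔓 => frobWt s 𝔓 / n) q.1 = _
      rw [Set.indicator_of_mem (hTsub d q.2)]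
    have h5 : (d : ℝ) * ∑' q : T d, w s q =
        ∑' 𝔮 : frobImage (Dd d), pw (fixF L (Dd d)) s 𝔮.1 := by
      rw [h4, h1, hcardD d hdn]
      have hn' : (n : ℝ) ≠ 0 := by exact_mod_cast hn.ne'
      have hd' : (d : ℝ) ≠ 0 := by exact_mod_cast hd0.ne'
      rw [Nat.cast_div hdn hd']
      field_simp
    rw [h5]
    have h6 := abs_add_le
      (∑' 𝔮 : frobImage (Dd d), pw (fixF L (Dd d)) s 𝔮.1 -
        NumberField.Set.primeIdealZetaSum (degOne (fixF L (Dd d))) s)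
      (NumberField.Set.primeIdealZetaSum (degOne (fixF L (Dd d))) s - Real.log (1 / (s - 1)))
    rw [sub_add_sub_cancel] at h6
    linarith
  have hGen : Gen.Infinite := infinite_of_moebius_zeta n hn w hw1 hsum T Gen hmoeb hZ
  -- avoid the primes of `S`
  have hBad : {𝔓 : HeightOneSpectrum (𝓞 L) | pOf L 𝔓 ∈ S}.Finite := by
    have : {𝔓 : HeightOneSpectrum (𝓞 L) | pOf L 𝔓 ∈ S} =
        ⋃ p ∈ S, {𝔓 : HeightOneSpectrum (𝓞 L) | pOf L 𝔓 = p} := by
      ext 𝔓
      simp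
    rw [this]
    exact hS.biUnion (fun p _ => finite_setOf_pOf_eq L p)
  obtain ⟨𝔓, h𝔓, hnS⟩ := (hGen.sdiff hBad).nonempty
  exact ⟨pOf L 𝔓, 𝔓.asIdeal, frob L 𝔓, pOf_prime 𝔓, hnS, 𝔓.isPrime, natCast_pOf_mem 𝔓,
    h𝔓.1.inertia_eq_bot, isArithFrobAt_frob 𝔓, h𝔓.2⟩

end Fermat.Agent.Lib.Frob
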