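import Fermat.Agent.Lib.Frob.GeneratesWiring
import Fermat.Agent.Lib.Frob.Wiring

/-!
# Frobenius density theorem (existence form) for the absolute Galois group of `ℚ`

Unconditional forms of `Fermat.Agent.Lib.Frob.exists_frobenius_generating_of` and
`Fermat.Agent.Lib.Frob.exists_frobenius_pow_eq_on_of` (second, independent pipeline:
`Lib/Frob/Generates` + `Lib/Frob/Bridge`).  Finite sets of primes are given as `Set.Finite`.
-/

set_option autoImplicit false

namespace Fermat.Agent.Lib.Frob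

local notation "Qbar" => AlgebraicClosure ℚ

/-- For every finite-dimensional subfield `K` of `Qbar`, finite set `S` of primes and `g` in the
absolute Galois group there are a prime `ℓ ∉ S`, a valuation subring `A` over `ℓ` and a Frobenius
element `σ` at `A` such that `g` and `σ` generate the same cyclic group of automorphisms of `K`. -/
theorem exists_frobenius_generating_set (K : IntermediateField ℚ Qbar) [FiniteDimensional ℚ K]
    (S : Set ℕ) (hS : S.Finite) (g : Qbar ≃ₐ[ℚ] Qbar) :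
    ∃ ℓ : ℕ, ℓ.Prime ∧ ℓ ∉ S ∧ ∃ (A : ValuationSubring Qbar) (σ : Qbar ≃ₐ[ℚ] Qbar) (k j : ℕ),
      A.LiesOverPrime ℓ ∧ A.IsFrobeniusAt σ ℓ ∧ (∀ x ∈ K, g x = (σ ^ k) x) ∧
        (∀ x ∈ K, σ x = (g ^ j) x) :=
  exists_frobenius_generating_of primeArithFrobGenerates K S hS g

/-- One-sided form: `g` agrees on `K` with a power of a Frobenius element at a prime outside
`S`. -/
theorem exists_frobenius_pow_eq_on (K : IntermediateField ℚ Qbar) [FiniteDimensional ℚ K]
    (S : Set ℕ) (hS : S.Finite) (g : Qbar ≃ₐ[ℚ] Qbar) :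
    ∃ (ℓ : ℕ) (A : ValuationSubring Qbar) (σ : Qbar ≃ₐ[ℚ] Qbar) (k : ℕ),
      ℓ.Prime ∧ ℓ ∉ S ∧ A.LiesOverPrime ℓ ∧ A.IsFrobeniusAt σ ℓ ∧ ∀ x ∈ K, g x = (σ ^ k) x :=
  exists_frobenius_pow_eq_on_of primeArithFrobGenerates K S hS g

end Fermat.Agent.Lib.Frob
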