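import Mathlib

/-!
# Möbius inversion on the subgroups of a finite cyclic group

Auxiliary combinatorics for the Frobenius density theorem (existence form).

For a finite cyclic group `C` of order `n` with generator `g`, the subgroup of index `d ∣ n` is
`zpowers (g ^ d)`.  For `σ : C`,

  `∑ d ∣ n, μ(d) · [σ ∈ zpowers (g ^ d)] = [σ generates C]`

and `∑ d ∣ n, μ(d) / d = φ(n) / n > 0`.
-/

set_option autoImplicit false

namespace Fermat.Agent.Lib.Frob

open ArithmeticFunction Finset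

local notation "μ'" => ArithmeticFunction.moebius

/-- `∑_{d ∣ n} μ(d) [d ∣ m] = [m = 1]` for `m ∣ n`, `n ≠ 0`. -/
theorem sum_divisors_moebius_ite_dvd {n m : ℕ} (hn : n ≠ 0) (hm : m ∣ n) :
    ∑ d ∈ n.divisors, (if d ∣ m then (μ' d : ℤ) else 0) = if m = 1 then 1 else 0 := by
  have hm0 : m ≠ 0 := fun h => hn (by simpa [h] using hm)
  rw [← Finset.sum_filter]
  have hfilter : n.divisors.filter (· ∣ m) = m.divisors := by
    ext d
    simp only [mem_filter, Nat.mem_divisors]
    constructor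
    · rintro ⟨-, h⟩; exact ⟨h, hm0⟩
    · rintro ⟨h, -⟩; exact ⟨⟨h.trans hm, hn⟩, h⟩
  rw [hfilter]
  have h1 := congrArg (fun f : ArithmeticFunction ℤ => f m) moebius_mul_coe_zeta
  simp only [mul_apply, one_apply] at h1
  rw [Nat.sum_divisorsAntidiagonal (f := fun a b => (μ' a : ℤ) * ((ArithmeticFunction.zeta : ArithmeticFunction ℕ) : ArithmeticFunction ℤ) b)]
    at h1
  rw [← h1]
  refine Finset.sum_congr rfl fun d hd => ?_
  have hd' := Nat.mem_divisors.mp hd
  have hne : m / d ≠ 0 := by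
    intro h
    rcases Nat.div_eq_zero_iff.mp h with h0 | hlt
    · subst h0; simp at hd'
    · exact absurd (Nat.le_of_dvd (Nat.pos_of_ne_zero hm0) hd'.1) (not_le.mpr hlt)
  simp [natCoe_apply, zeta_apply, hne]

variable {C : Type*} [Group C] [Finite C]

/-- In a finite cyclic group with generator `g` of order `n`, for `d ∣ n`, membership in the
subgroup of index `d`. -/
theorem mem_zpowers_pow_iff {g : C} (hg : ∀ x : C, x ∈ Subgroup.zpowers g) {d : ℕ}
    (hd : d ∣ Nat.card C) (σ : C) :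
    σ ∈ Subgroup.zpowers (g ^ d) ↔ d ∣ Nat.card C / orderOf σ := by
  have hn : 0 < Nat.card C := Nat.card_pos
  have hog : orderOf g = Nat.card C := orderOf_eq_card_of_forall_mem_zpowers hg
  have hd0 : 0 < d := Nat.pos_of_dvd_of_pos hd hn
  have hσn : orderOf σ ∣ Nat.card C := orderOf_dvd_natCard σ
  have hσ0 : 0 < orderOf σ := orderOf_pos σ
  -- `d ∣ n / ord σ ↔ σ ^ (n / d) = 1`
  have key : d ∣ Nat.card C / orderOf σ ↔ σ ^ (Nat.card C / d) = 1 := by
    rw [← orderOf_dvd_iff_pow_eq_one]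
    obtain ⟨a, ha⟩ := hd
    obtain ⟨b, hb⟩ := hσn
    have ha0 : 0 < a := by
      rcases Nat.eq_zero_or_pos a with h | h
      · rw [h, mul_zero] at ha; omega
      · exact h
    have hb0 : 0 < b := by
      rcases Nat.eq_zero_or_pos b with h | h
      · rw [h, mul_zero] at hb; omega
      · exact h
    have e1 : Nat.card C / d = a := by rw [ha]; exact Nat.mul_div_cancel_left a hd0
    have e2 : Nat.card C / orderOf σ = b := by
      conv_lhs => rw [hb]
      exact Nat.mul_div_cancel_left b hσ0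
    rw [e1, e2]
    constructor
    · rintro ⟨c, rfl⟩
      refine ⟨c, ?_⟩
      have : d * a = orderOf σ * (d * c) := by rw [← ha, hb]
      have h2 : d * a = d * (orderOf σ * c) := by rw [this]; ring
      exact Nat.eq_of_mul_eq_mul_left hd0 h2
    · rintro ⟨c, rfl⟩
      refine ⟨c, ?_⟩
      have : orderOf σ * b = d * (orderOf σ * c) := by rw [← hb, ha]
      have h2 : orderOf σ * b = orderOf σ * (d * c) := by rw [this]; ring
      exact Nat.eq_of_mul_eq_mul_left hσ0 h2
  rw [key]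
  constructor
  · rintro ⟨k, rfl⟩
    show ((g ^ d) ^ k) ^ (Nat.card C / d) = 1
    rw [← zpow_natCast, ← zpow_natCast, ← zpow_mul, ← zpow_mul]
    have e : (d : ℤ) * (k * ((Nat.card C / d : ℕ) : ℤ)) = ((Nat.card C : ℕ) : ℤ) * k := by
      have := Nat.div_mul_cancel hd
      have h' : ((Nat.card C / d : ℕ) : ℤ) * (d : ℤ) = ((Nat.card C : ℕ) : ℤ) := by
        exact_mod_cast this
      rw [← h']; ring
    rw [e, zpow_mul, zpow_natCast, ← hog, pow_orderOf_eq_one, one_zpow]
  · intro h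
    obtain ⟨k, rfl⟩ := Subgroup.mem_zpowers_iff.mp (hg σ)
    -- `g ^ (k * (n / d)) = 1` so `n ∣ k * (n/d)` so `d ∣ k`
    rw [← zpow_natCast, ← zpow_mul] at h
    have h3 : (orderOf g : ℤ) ∣ k * ((Nat.card C / d : ℕ) : ℤ) :=
      orderOf_dvd_iff_zpow_eq_one.mpr h
    rw [hog] at h3
    obtain ⟨a, ha⟩ := hd
    have ha0 : 0 < a := by
      rcases Nat.eq_zero_or_pos a with h | h
      · rw [h, mul_zero] at ha; omega
      · exact h
    have e1 : Nat.card C / d = a := by rw [ha]; exact Nat.mul_div_cancel_left a hd0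
    rw [e1, ha] at h3
    have h4 : (d : ℤ) ∣ k := by
      have h5 : ((d : ℤ) * (a : ℤ)) ∣ k * (a : ℤ) := by exact_mod_cast h3
      have ha' : (a : ℤ) ≠ 0 := by exact_mod_cast ha0.ne'
      exact (mul_dvd_mul_iff_right ha').mp h5
    obtain ⟨c, rfl⟩ := h4
    refine Subgroup.mem_zpowers_iff.mpr ⟨c, ?_⟩
    rw [← zpow_natCast, ← zpow_mul]

/-- `σ` generates the finite group `C` iff its order is the cardinality. -/
theorem zpowers_eq_top_iff_orderOf (σ : C) :
    Subgroup.zpowers σ = ⊤ ↔ Nat.card C / orderOf σ = 1 := by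
  have hn : 0 < Nat.card C := Nat.card_pos
  have hσn : orderOf σ ∣ Nat.card C := orderOf_dvd_natCard σ
  have hσ0 : 0 < orderOf σ := orderOf_pos σ
  constructor
  · intro h
    have : orderOf σ = Nat.card C := by
      rw [← Nat.card_zpowers, h, Subgroup.card_top]
    rw [this, Nat.div_self hn]
  · intro h
    have h2 : orderOf σ = Nat.card C := by
      obtain ⟨b, hb⟩ := hσn
      rw [hb, Nat.mul_div_cancel_left b hσ0] at h
      rw [hb, h, mul_one]
    apply Subgroup.eq_top_of_card_eq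
    rw [Nat.card_zpowers, h2]

/-- **Möbius identity in a finite cyclic group**, integer form. -/
theorem sum_moebius_mem_zpowers_pow {g : C} (hg : ∀ x : C, x ∈ Subgroup.zpowers g) (σ : C)
    [DecidablePred fun d : ℕ => σ ∈ Subgroup.zpowers (g ^ d)]
    [Decidable (Subgroup.zpowers σ = ⊤)] :
    ∑ d ∈ (Nat.card C).divisors, (if σ ∈ Subgroup.zpowers (g ^ d) then (μ' d : ℤ) else 0) =
      if Subgroup.zpowers σ = ⊤ then 1 else 0 := by
  have hn : Nat.card C ≠ 0 := Nat.card_pos.ne'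
  have hσn : orderOf σ ∣ Nat.card C := orderOf_dvd_natCard σ
  have hm : Nat.card C / orderOf σ ∣ Nat.card C := Nat.div_dvd_of_dvd hσn
  have h1 := sum_divisors_moebius_ite_dvd hn hm
  have h2 : ∑ d ∈ (Nat.card C).divisors,
      (if σ ∈ Subgroup.zpowers (g ^ d) then (μ' d : ℤ) else 0) =
      ∑ d ∈ (Nat.card C).divisors, (if d ∣ Nat.card C / orderOf σ then (μ' d : ℤ) else 0) := by
    refine Finset.sum_congr rfl fun d hd => ?_
    have hd' := (Nat.mem_divisors.mp hd).1
    have := mem_zpowers_pow_iff hg hd' σ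
    by_cases hc : σ ∈ Subgroup.zpowers (g ^ d)
    · rw [if_pos hc, if_pos (this.mp hc)]
    · rw [if_neg hc, if_neg (fun h => hc (this.mpr h))]
  rw [h2, h1]
  have := zpowers_eq_top_iff_orderOf σ
  by_cases hc : Subgroup.zpowers σ = ⊤
  · rw [if_pos hc, if_pos (this.mp hc)]
  · rw [if_neg hc, if_neg (fun h => hc (this.mpr h))]

/-- **Möbius identity in a finite cyclic group**, real form. -/
theorem sum_moebius_mem_zpowers_pow_real {g : C} (hg : ∀ x : C, x ∈ Subgroup.zpowers g) (σ : C)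
    [DecidablePred fun d : ℕ => σ ∈ Subgroup.zpowers (g ^ d)]
    [Decidable (Subgroup.zpowers σ = ⊤)] :
    ∑ d ∈ (Nat.card C).divisors, ((μ' d : ℤ) : ℝ) * (if σ ∈ Subgroup.zpowers (g ^ d) then 1 else 0) =
      if Subgroup.zpowers σ = ⊤ then 1 else 0 := by
  have h := congrArg (fun z : ℤ => (z : ℝ)) (sum_moebius_mem_zpowers_pow hg σ)
  simp only [Int.cast_sum] at h
  rw [show (((if Subgroup.zpowers σ = ⊤ then 1 else 0 : ℤ)) : ℝ) =
    if Subgroup.zpowers σ = ⊤ then 1 else 0 by split_ifs <;> simp] at h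
  rw [← h]
  refine Finset.sum_congr rfl fun d _ => ?_
  split_ifs <;> simp

/-- `∑_{d ∣ n} μ(d) / d = φ(n) / n`. -/
theorem sum_divisors_moebius_div {n : ℕ} (hn : 0 < n) :
    ∑ d ∈ n.divisors, ((μ' d : ℤ) : ℝ) / (d : ℝ) = (n.totient : ℝ) / (n : ℝ) := by
  have key : ∀ m : ℕ, 0 < m →
      ∑ x ∈ m.divisorsAntidiagonal, ((μ' x.fst : ℤ) : ℝ) * ((x.snd : ℕ) : ℝ) =
        ((m.totient : ℕ) : ℝ) :=
    (sum_eq_iff_sum_mul_moebius_eq (R := ℝ) (f := fun m => ((m.totient : ℕ) : ℝ))
      (g := fun m => (m : ℝ))).mp (fun m _ => by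
        rw [← Nat.cast_sum, Nat.sum_totient])
  have h1 := key n hn
  rw [Nat.sum_divisorsAntidiagonal (f := fun a b => ((μ' a : ℤ) : ℝ) * (b : ℝ))] at h1
  rw [← h1, Finset.sum_div]
  refine Finset.sum_congr rfl fun d hd => ?_
  have hd' := Nat.mem_divisors.mp hd
  have hd0 : (d : ℝ) ≠ 0 := by
    have : d ≠ 0 := fun h => by rw [h, zero_dvd_iff] at hd'; exact hd'.2 hd'.1
    exact_mod_cast this
  have hn0 : (n : ℝ) ≠ 0 := by exact_mod_cast hn.ne'
  rw [Nat.cast_div hd'.1 hd0]
  field_simp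

/-- `∑_{d ∣ n} μ(d) / d > 0`. -/
theorem sum_divisors_moebius_div_pos {n : ℕ} (hn : 0 < n) :
    0 < ∑ d ∈ n.divisors, ((μ' d : ℤ) : ℝ) / (d : ℝ) := by
  rw [sum_divisors_moebius_div hn]
  have h1 : (0 : ℝ) < (n.totient : ℝ) := by exact_mod_cast Nat.totient_pos.mpr hn
  have h2 : (0 : ℝ) < (n : ℝ) := by exact_mod_cast hn
  positivity

/-- The subgroup `zpowers (g ^ d)` of a cyclic group of order `n` has order `n / d` for `d ∣ n`. -/
theorem card_zpowers_pow {g : C} (hg : ∀ x : C, x ∈ Subgroup.zpowers g) {d : ℕ}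
    (hd : d ∣ Nat.card C) : Nat.card (Subgroup.zpowers (g ^ d)) = Nat.card C / d := by
  have hog : orderOf g = Nat.card C := orderOf_eq_card_of_forall_mem_zpowers hg
  rw [Nat.card_zpowers, orderOf_pow, hog, Nat.gcd_eq_right hd]

/-- The subgroup `zpowers (g ^ d)` of a cyclic group of order `n` has index `d` for `d ∣ n`. -/
theorem index_zpowers_pow {g : C} (hg : ∀ x : C, x ∈ Subgroup.zpowers g) {d : ℕ}
    (hd : d ∣ Nat.card C) : (Subgroup.zpowers (g ^ d)).index = d := by
  have hn : 0 < Nat.card C := Nat.card_pos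
  have hd0 : 0 < d := Nat.pos_of_dvd_of_pos hd hn
  have h1 := Subgroup.card_mul_index (Subgroup.zpowers (g ^ d))
  rw [card_zpowers_pow hg hd] at h1
  obtain ⟨a, ha⟩ := hd
  have ha0 : 0 < a := by
    rcases Nat.eq_zero_or_pos a with h | h
    · rw [h, mul_zero] at ha; omega
    · exact h
  rw [ha, Nat.mul_div_cancel_left a hd0] at h1
  have h2 : a * (Subgroup.zpowers (g ^ d)).index = a * d := by rw [h1]; ring
  exact Nat.eq_of_mul_eq_mul_left ha0 h2

end Fermat.Agent.Lib.Frob
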