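import Mathlib
import Fermat.Agent.Lib.Frob.AbelianSplit
import Fermat.Agent.Lib.Frob.Wiring

/-!
# Reduction of the Frobenius density theorem (existence form) to cyclic extensions

`AbSplit.CyclicFrobGenerates`: for a cyclic extension `L/M` of number fields with
`Gal(L/M) = ⟨g⟩` and a finite set `S` of rational primes there is a prime `q` of `M` of prime
absolute norm `∉ S` whose Frobenius element generates `Gal(L/M)`.

`AbSplit.primeArithFrobGenerates_of_cyclic`: this implies the number-field form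
`PrimeArithFrobGenerates` of the Frobenius density theorem (take `M` to be the fixed field of
`⟨g⟩`).
-/

open NumberField IsDedekindDomain

namespace Fermat.Agent.Lib.Frob.AbSplit

open scoped Pointwise

/-- The cyclic core of the Frobenius density theorem (existence form). -/
def CyclicFrobGenerates : Prop :=
  ∀ (M L : Type) [Field M] [NumberField M] [Field L] [NumberField L] [Algebra M L]
    [IsGalois M L] (g : L ≃ₐ[M] L), (∀ τ : L ≃ₐ[M] L, τ ∈ Subgroup.zpowers g) →
    ∀ S : Set ℕ, S.Finite →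
    ∃ (q : HeightOneSpectrum (𝓞 M)) (σ : L ≃ₐ[M] L), (Ideal.absNorm q.asIdeal).Prime ∧
      Ideal.absNorm q.asIdeal ∉ S ∧
      (∀ P : Ideal (𝓞 L), P.IsPrime → P.LiesOver q.asIdeal → IsArithFrobAt (𝓞 M) σ P) ∧
      (∀ τ : L ≃ₐ[M] L, τ ∈ Subgroup.zpowers σ)

/-- The embedding `Gal(L/M) → Gal(L/ℚ)` for an intermediate field `M`. -/
noncomputable def galIncl {L : Type*} [Field L] [CharZero L] (M : IntermediateField ℚ L) :
    (L ≃ₐ[M] L) →* (L ≃ₐ[ℚ] L) :=
  (Subgroup.subtype _).comp (IntermediateField.fixingSubgroupEquiv M).symm.toMonoidHom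

theorem galIncl_apply {L : Type*} [Field L] [CharZero L] (M : IntermediateField ℚ L) (σ : L ≃ₐ[M] L)
    (x : L) : galIncl M σ x = σ x := rfl

theorem galIncl_mem {L : Type*} [Field L] [CharZero L] (M : IntermediateField ℚ L) (σ : L ≃ₐ[M] L) :
    galIncl M σ ∈ M.fixingSubgroup :=
  ((IntermediateField.fixingSubgroupEquiv M).symm σ).2

theorem galIncl_fixingSubgroupEquiv {L : Type*} [Field L] [CharZero L] (M : IntermediateField ℚ L)
    (h : M.fixingSubgroup) : galIncl M (IntermediateField.fixingSubgroupEquiv M h) = h.1 := by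
  simp [galIncl]

/-- **Reduction to the cyclic core.** -/
theorem primeArithFrobGenerates_of_cyclic (h : CyclicFrobGenerates) :
    PrimeArithFrobGenerates := by
  intro L _ _ _ g S hS
  let H : Subgroup (L ≃ₐ[ℚ] L) := Subgroup.zpowers g
  let M : IntermediateField ℚ L := IntermediateField.fixedField H
  have hfix : M.fixingSubgroup = H := IntermediateField.fixingSubgroup_fixedField H
  have hgmem : g ∈ M.fixingSubgroup := by rw [hfix]; exact Subgroup.mem_zpowers g
  let e := IntermediateField.fixingSubgroupEquiv M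
  let g' : L ≃ₐ[M] L := e ⟨g, hgmem⟩
  have hφg' : galIncl M g' = g := galIncl_fixingSubgroupEquiv M ⟨g, hgmem⟩
  have hinj : Function.Injective (galIncl M) := by
    intro a b hab
    ext x
    have := DFunLike.congr_fun hab x
    simpa [galIncl_apply] using this
  have hg' : ∀ τ : L ≃ₐ[M] L, τ ∈ Subgroup.zpowers g' := by
    intro τ
    have hτ : galIncl M τ ∈ Subgroup.zpowers g := by
      have := galIncl_mem M τ
      rwa [hfix] at this
    obtain ⟨k, hk⟩ := Subgroup.mem_zpowers_iff.mp hτ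
    refine Subgroup.mem_zpowers_iff.mpr ⟨k, hinj ?_⟩
    rw [map_zpow, hφg', hk]
  -- the bad primes
  let B : Set ℕ := {p : ℕ | p.Prime ∧ ∃ P : Ideal (𝓞 L), P.IsPrime ∧ (p : 𝓞 L) ∈ P ∧
      P.inertia (L ≃ₐ[ℚ] L) ≠ ⊥}
  have hB : B.Finite := finite_setOf_inertia_ne_bot L
  obtain ⟨q, σ, hqprime, hqS, hσ, hgen⟩ := h M L g' hg' (S ∪ B) (hS.union hB)
  set p := Ideal.absNorm q.asIdeal with hp
  obtain ⟨⟨P, hP, hPq⟩⟩ : Nonempty (q.asIdeal.primesOver (𝓞 L)) := inferInstance
  have hpP : (p : 𝓞 L) ∈ P := by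
    have h1 : ((p : ℕ) : 𝓞 M) ∈ q.asIdeal := Ideal.absNorm_mem q.asIdeal
    rw [Ideal.mem_of_liesOver P q.asIdeal, map_natCast] at h1
    exact h1
  have hpS : p ∉ S := fun hh => hqS (Or.inl hh)
  have hinert : P.inertia (L ≃ₐ[ℚ] L) = ⊥ := by
    by_contra hne
    exact hqS (Or.inr ⟨hqprime, P, hP, hpP, hne⟩)
  refine ⟨p, P, galIncl M σ, hqprime, hpS, hP, hpP, hinert, ?_, ?_⟩
  · -- arithmetic Frobenius over `ℤ`
    intro x
    have h1 := hσ P hP hPq x
    have hc1 : Nat.card (ℤ ⧸ P.under ℤ) = p := natCard_quotient_under_eq L hqprime P hpP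
    have hc2 : Nat.card (𝓞 M ⧸ P.under (𝓞 M)) = p := by
      rw [← hPq.over, hp, Ideal.absNorm_apply, Submodule.cardQuot_apply]
    rw [hc2] at h1
    rw [hc1]
    exact h1
  · -- same cyclic subgroup
    apply le_antisymm
    · rw [Subgroup.zpowers_le]
      obtain ⟨k, hk⟩ := Subgroup.mem_zpowers_iff.mp (hg' σ)
      refine Subgroup.mem_zpowers_iff.mpr ⟨k, ?_⟩
      rw [← hk, map_zpow, hφg']
    · rw [Subgroup.zpowers_le]
      obtain ⟨k, hk⟩ := Subgroup.mem_zpowers_iff.mp (hgen g')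
      refine Subgroup.mem_zpowers_iff.mpr ⟨k, ?_⟩
      rw [← hφg', ← hk, map_zpow]

end Fermat.Agent.Lib.Frob.AbSplit
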